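import Mathlib

/-!
# S13 / EDS hedge (helper10): x-only identities of the group law

For a Weierstrass curve `W` over a field `F` (general `a_i`) and affine points `A`, `B`:

* `ptX`, `ptPsi` : the `x`-coordinate and the value of `ψ₂ = 2y + a₁x + a₃` at a point
  (junk value `0` at infinity);
* `ptPsi_sq` : `ψ₂(A)^2 = Ψ₂Sq(x_A)`;
* `two_nsmul_eq_zero_iff` : `2 • A = 0 ↔ ψ₂(A) = 0`;
* `ptX_eq_iff` : `x_A = x_B ↔ A = B ∨ A = -B`;
* `dbl_X` (G3) : `(x_A - x(2A)) ψ₂(A)^2 = Ψ₃(x_A)`;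
* `dbl_psi` (G4) : `ψ₂(2A) ψ₂(A)^3 = preΨ₄(x_A)`;
* `add_sub_X` (G1) : `(x(A+B) - x(A-B)) (x_A - x_B)^2 = - ψ₂(A) ψ₂(B)`;
* `centered_X` (G2) :
  `(x(A+B) - x_B)(x(A-B) - x_B)(x_A - x_B)^2 = - Ψ₂Sq(x_B)(x_A - x_B) - Ψ₃(x_B)`.
-/

set_option autoImplicit false

open WeierstrassCurve WeierstrassCurve.Affine

namespace Fermat.Agent.S13.EDS.GL

variable {F : Type*} [Field F] {W : WeierstrassCurve.Affine F}

/-- The `x`-coordinate of a point (junk value `0` at infinity). -/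
def ptX : W.Point → F
  | .zero => 0
  | .some x _ _ => x

/-- The value of `ψ₂ = 2y + a₁x + a₃` at a point (junk value `0` at infinity). -/
def ptPsi : W.Point → F
  | .zero => 0
  | .some x y _ => 2 * y + W.a₁ * x + W.a₃

@[simp] lemma ptX_some {x y : F} (h : W.Nonsingular x y) : ptX (Point.some x y h) = x := rfl

@[simp] lemma ptPsi_some {x y : F} (h : W.Nonsingular x y) :
    ptPsi (Point.some x y h) = 2 * y + W.a₁ * x + W.a₃ := rfl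

@[simp] lemma ptX_zero : ptX (0 : W.Point) = 0 := rfl

@[simp] lemma ptPsi_zero : ptPsi (0 : W.Point) = 0 := rfl

lemma exists_some_of_ne_zero {A : W.Point} (hA : A ≠ 0) :
    ∃ (x y : F) (h : W.Nonsingular x y), A = Point.some x y h := by
  cases A with
  | zero => exact absurd rfl hA
  | some x y h => exact ⟨x, y, h, rfl⟩

lemma ptX_neg (A : W.Point) : ptX (-A) = ptX A := by
  cases A with
  | zero => rfl
  | some x y h => rfl

lemma ptPsi_neg (A : W.Point) : ptPsi (-A) = -ptPsi A := by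
  cases A with
  | zero => simp [← Point.zero_def]
  | some x y h =>
    simp only [Point.neg_some, ptPsi_some, Affine.negY]
    ring

/-! ### evaluation of the small division polynomials -/

lemma eval_Ψ₂Sq (x : F) :
    W.Ψ₂Sq.eval x = 4 * x ^ 3 + W.b₂ * x ^ 2 + 2 * W.b₄ * x + W.b₆ := by
  simp [WeierstrassCurve.Ψ₂Sq]

lemma eval_Ψ₃ (x : F) :
    W.Ψ₃.eval x = 3 * x ^ 4 + W.b₂ * x ^ 3 + 3 * W.b₄ * x ^ 2 + 3 * W.b₆ * x + W.b₈ := by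
  simp [WeierstrassCurve.Ψ₃]

lemma eval_preΨ₄ (x : F) :
    W.preΨ₄.eval x = 2 * x ^ 6 + W.b₂ * x ^ 5 + 5 * W.b₄ * x ^ 4 + 10 * W.b₆ * x ^ 3
      + 10 * W.b₈ * x ^ 2 + (W.b₂ * W.b₈ - W.b₄ * W.b₆) * x + (W.b₄ * W.b₈ - W.b₆ ^ 2) := by
  simp [WeierstrassCurve.preΨ₄]

/-! ### polynomial identities modulo the curve equation -/

lemma psi_sq_poly {x y : F} (hE : W.Equation x y) :
    (2 * y + W.a₁ * x + W.a₃) ^ 2 = W.Ψ₂Sq.eval x := by
  rw [Affine.equation_iff] at hE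
  rw [eval_Ψ₂Sq]
  simp only [WeierstrassCurve.b₂, WeierstrassCurve.b₄, WeierstrassCurve.b₆]
  linear_combination 4 * hE

lemma dbl_X_poly {x y : F} (hE : W.Equation x y) (N b : F)
    (hN : N = 3 * x ^ 2 + 2 * W.a₂ * x + W.a₄ - W.a₁ * y)
    (hb : b = 2 * y + W.a₁ * x + W.a₃) :
    (3 * x + W.a₂) * b ^ 2 - N ^ 2 - W.a₁ * N * b = W.Ψ₃.eval x := by
  rw [Affine.equation_iff] at hE
  rw [eval_Ψ₃]
  simp only [WeierstrassCurve.b₂, WeierstrassCurve.b₄, WeierstrassCurve.b₆, WeierstrassCurve.b₈]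
  subst hN hb
  grind

lemma dbl_psi_poly {x y : F} (hE : W.Equation x y) (N b : F)
    (hN : N = 3 * x ^ 2 + 2 * W.a₂ * x + W.a₄ - W.a₁ * y)
    (hb : b = 2 * y + W.a₁ * x + W.a₃) :
    -(2 * N + W.a₁ * b) * (N ^ 2 + W.a₁ * N * b - (W.a₂ + 3 * x) * b ^ 2) - b ^ 4
      = W.preΨ₄.eval x := by
  rw [Affine.equation_iff] at hE
  rw [eval_preΨ₄]
  simp only [WeierstrassCurve.b₂, WeierstrassCurve.b₄, WeierstrassCurve.b₆, WeierstrassCurve.b₈]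
  subst hN hb
  grind


lemma add_sub_X_poly (x₁ y₁ x₂ y₂ : F) :
    ((y₁ - y₂) ^ 2 + W.a₁ * (y₁ - y₂) * (x₁ - x₂))
      - ((y₁ - W.negY x₂ y₂) ^ 2 + W.a₁ * (y₁ - W.negY x₂ y₂) * (x₁ - x₂))
      = -(2 * y₁ + W.a₁ * x₁ + W.a₃) * (2 * y₂ + W.a₁ * x₂ + W.a₃) := by
  simp only [Affine.negY]
  ring

lemma centered_X_poly {x₁ y₁ x₂ y₂ : F} (hE₁ : W.Equation x₁ y₁) (hE₂ : W.Equation x₂ y₂) :
    ((y₁ - y₂) ^ 2 + W.a₁ * (y₁ - y₂) * (x₁ - x₂) - (W.a₂ + x₁ + 2 * x₂) * (x₁ - x₂) ^ 2)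
      * ((y₁ - W.negY x₂ y₂) ^ 2 + W.a₁ * (y₁ - W.negY x₂ y₂) * (x₁ - x₂)
          - (W.a₂ + x₁ + 2 * x₂) * (x₁ - x₂) ^ 2)
      = (x₁ - x₂) ^ 2 * (-W.Ψ₂Sq.eval x₂ * (x₁ - x₂) - W.Ψ₃.eval x₂) := by
  rw [Affine.equation_iff] at hE₁ hE₂
  rw [eval_Ψ₂Sq, eval_Ψ₃]
  simp only [WeierstrassCurve.b₂, WeierstrassCurve.b₄, WeierstrassCurve.b₆, WeierstrassCurve.b₈,
    Affine.negY]
  grind

/-! ### the identities for points -/

section Points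

variable [DecidableEq F]

lemma ptPsi_sq (A : W.Point) : ptPsi A ^ 2 = if A = 0 then 0 else W.Ψ₂Sq.eval (ptX A) := by
  cases A with
  | zero => simp [← Point.zero_def]
  | some x y h =>
    rw [if_neg (Point.some_ne_zero h), ptPsi_some, ptX_some]
    exact psi_sq_poly h.1

lemma ptPsi_sq_of_ne {A : W.Point} (hA : A ≠ 0) : ptPsi A ^ 2 = W.Ψ₂Sq.eval (ptX A) := by
  rw [ptPsi_sq, if_neg hA]

lemma two_nsmul_some_eq_zero_iff {x y : F} (h : W.Nonsingular x y) :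
    (2 : ℕ) • Point.some x y h = 0 ↔ 2 * y + W.a₁ * x + W.a₃ = 0 := by
  rw [two_nsmul]
  constructor
  · intro h0
    by_contra hne
    have hy : y ≠ W.negY x y := by
      intro hy
      apply hne
      simp only [Affine.negY] at hy
      linear_combination hy
    rw [Point.add_self_of_Y_ne hy] at h0
    exact Point.some_ne_zero _ h0
  · intro h0
    have hy : y = W.negY x y := by
      simp only [Affine.negY]
      linear_combination h0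
    exact Point.add_self_of_Y_eq hy

lemma two_nsmul_eq_zero_iff {A : W.Point} (hA : A ≠ 0) :
    (2 : ℕ) • A = 0 ↔ ptPsi A = 0 := by
  obtain ⟨x, y, h, rfl⟩ := exists_some_of_ne_zero hA
  rw [two_nsmul_some_eq_zero_iff, ptPsi_some]

omit [DecidableEq F] in
lemma ptX_eq_iff {A B : W.Point} (hA : A ≠ 0) (hB : B ≠ 0) :
    ptX A = ptX B ↔ A = B ∨ A = -B := by
  obtain ⟨x₁, y₁, h₁, rfl⟩ := exists_some_of_ne_zero hA
  obtain ⟨x₂, y₂, h₂, rfl⟩ := exists_some_of_ne_zero hB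
  simp only [ptX_some]
  exact Point.X_eq_iff

/-- (G3) doubling formula for the `x`-coordinate. -/
lemma dbl_X {A : W.Point} (hA : A ≠ 0) (h2 : (2 : ℕ) • A ≠ 0) :
    (ptX A - ptX ((2 : ℕ) • A)) * ptPsi A ^ 2 = W.Ψ₃.eval (ptX A) := by
  obtain ⟨x, y, h, rfl⟩ := exists_some_of_ne_zero hA
  have hb : 2 * y + W.a₁ * x + W.a₃ ≠ 0 := fun hb =>
    h2 ((two_nsmul_some_eq_zero_iff h).2 hb)
  have hy : y ≠ W.negY x y := by
    intro hy
    apply hb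
    simp only [Affine.negY] at hy
    linear_combination hy
  have hb' : y - W.negY x y = 2 * y + W.a₁ * x + W.a₃ := by
    simp only [Affine.negY]; ring
  rw [two_nsmul, Point.add_self_of_Y_ne hy, ptX_some, ptX_some, ptPsi_some,
    Affine.slope_of_Y_ne rfl hy, hb', Affine.addX,
    ← dbl_X_poly h.1 _ _ rfl rfl]
  generalize 3 * x ^ 2 + 2 * W.a₂ * x + W.a₄ - W.a₁ * y = N
  generalize 2 * y + W.a₁ * x + W.a₃ = b at hb
  field_simp
  ring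

/-- (G4) doubling formula for `ψ₂`. -/
lemma dbl_psi {A : W.Point} (hA : A ≠ 0) (h2 : (2 : ℕ) • A ≠ 0) :
    ptPsi ((2 : ℕ) • A) * ptPsi A ^ 3 = W.preΨ₄.eval (ptX A) := by
  obtain ⟨x, y, h, rfl⟩ := exists_some_of_ne_zero hA
  have hb : 2 * y + W.a₁ * x + W.a₃ ≠ 0 := fun hb =>
    h2 ((two_nsmul_some_eq_zero_iff h).2 hb)
  have hy : y ≠ W.negY x y := by
    intro hy
    apply hb
    simp only [Affine.negY] at hy
    linear_combination hy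
  have hb' : y - W.negY x y = 2 * y + W.a₁ * x + W.a₃ := by
    simp only [Affine.negY]; ring
  have e : ∀ (N b : F), b ≠ 0 → b = 2 * y + W.a₁ * x + W.a₃ →
      (2 * (-(N / b * ((N / b) ^ 2 + W.a₁ * (N / b) - W.a₂ - x - x - x) + y)
        - W.a₁ * ((N / b) ^ 2 + W.a₁ * (N / b) - W.a₂ - x - x) - W.a₃)
        + W.a₁ * ((N / b) ^ 2 + W.a₁ * (N / b) - W.a₂ - x - x) + W.a₃) * b ^ 3
      = -(2 * N + W.a₁ * b) * (N ^ 2 + W.a₁ * N * b - (W.a₂ + 3 * x) * b ^ 2) - b ^ 4 := by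
    intro N b hb0 hbe
    have hy' : 2 * y = b - W.a₁ * x - W.a₃ := by rw [hbe]; ring
    field_simp
    linear_combination (-b ^ 3) * hy'
  rw [two_nsmul, Point.add_self_of_Y_ne hy, ptPsi_some, ptX_some, ptPsi_some,
    Affine.slope_of_Y_ne rfl hy, hb', Affine.addY, Affine.negAddY, Affine.addX, Affine.negY,
    ← dbl_psi_poly h.1 _ _ rfl rfl]
  exact e _ _ hb rfl

lemma ptX_add_of_ne {x₁ y₁ x₂ y₂ : F} (h₁ : W.Nonsingular x₁ y₁) (h₂ : W.Nonsingular x₂ y₂)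
    (hx : x₁ ≠ x₂) :
    ptX (Point.some x₁ y₁ h₁ + Point.some x₂ y₂ h₂)
      = W.addX x₁ x₂ ((y₁ - y₂) / (x₁ - x₂)) := by
  rw [Point.add_of_X_ne hx, ptX_some, Affine.slope_of_X_ne hx]

lemma ptX_sub_of_ne {x₁ y₁ x₂ y₂ : F} (h₁ : W.Nonsingular x₁ y₁) (h₂ : W.Nonsingular x₂ y₂)
    (hx : x₁ ≠ x₂) :
    ptX (Point.some x₁ y₁ h₁ - Point.some x₂ y₂ h₂)
      = W.addX x₁ x₂ ((y₁ - W.negY x₂ y₂) / (x₁ - x₂)) := by
  rw [sub_eq_add_neg, Point.neg_some, ptX_add_of_ne _ _ hx]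

/-- (G1) `(x(A+B) - x(A-B)) (x_A - x_B)^2 = - ψ₂(A) ψ₂(B)`. -/
lemma add_sub_X {A B : W.Point} (hA : A ≠ 0) (hB : B ≠ 0) (hx : ptX A ≠ ptX B) :
    (ptX (A + B) - ptX (A - B)) * (ptX A - ptX B) ^ 2 = -ptPsi A * ptPsi B := by
  obtain ⟨x₁, y₁, h₁, rfl⟩ := exists_some_of_ne_zero hA
  obtain ⟨x₂, y₂, h₂, rfl⟩ := exists_some_of_ne_zero hB
  simp only [ptX_some] at hx
  have hD : x₁ - x₂ ≠ 0 := sub_ne_zero.2 hx
  rw [ptX_add_of_ne h₁ h₂ hx, ptX_sub_of_ne h₁ h₂ hx, ptX_some, ptX_some, ptPsi_some, ptPsi_some,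
    ← add_sub_X_poly, Affine.addX, Affine.addX]
  field_simp
  ring

/-- (G2) the centered product formula:
`(x(A+B) - x_B)(x(A-B) - x_B)(x_A - x_B)^2 = - Ψ₂Sq(x_B)(x_A - x_B) - Ψ₃(x_B)`. -/
lemma centered_X {A B : W.Point} (hA : A ≠ 0) (hB : B ≠ 0) (hx : ptX A ≠ ptX B) :
    (ptX (A + B) - ptX B) * (ptX (A - B) - ptX B) * (ptX A - ptX B) ^ 2
      = -W.Ψ₂Sq.eval (ptX B) * (ptX A - ptX B) - W.Ψ₃.eval (ptX B) := by
  obtain ⟨x₁, y₁, h₁, rfl⟩ := exists_some_of_ne_zero hA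
  obtain ⟨x₂, y₂, h₂, rfl⟩ := exists_some_of_ne_zero hB
  simp only [ptX_some] at hx
  have hD : x₁ - x₂ ≠ 0 := sub_ne_zero.2 hx
  have key := centered_X_poly h₁.1 h₂.1
  rw [ptX_add_of_ne h₁ h₂ hx, ptX_sub_of_ne h₁ h₂ hx, ptX_some, ptX_some, Affine.addX,
    Affine.addX]
  have hD2 : (x₁ - x₂) ^ 2 ≠ 0 := pow_ne_zero 2 hD
  apply mul_left_cancel₀ hD2
  rw [← key]
  field_simp
  ring

end Points

end Fermat.Agent.S13.EDS.GL
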