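import Mathlib

/-!
# Ward's identity for Mathlib's `normEDS` (helper2)

For `W = normEDS b c d` over an arbitrary commutative ring and all `m n : ℤ`:

`W (m + n) * W (m - n) = W (m + 1) * W (m - 1) * W n ^ 2 - W (n + 1) * W (n - 1) * W m ^ 2`.

The proof is a strong induction on `m + n` in the universal ring `ℤ[b, c, d]`, using Plücker
relations between the `2 × 2` minors of the matrix with rows `W (k + 1) * W (k - 1)` and
`W k ^ 2`, and one explicit polynomial identity for the Somos-4 relation at even indices.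
-/

set_option autoImplicit false

namespace Fermat.Agent.S13.Ward

variable {R : Type*} [CommRing R]

/-- Ward's identity at the pair `(m, n)`. -/
def WardAt (W : ℤ → R) (m n : ℤ) : Prop :=
  W (m + n) * W (m - n) = W (m + 1) * W (m - 1) * W n ^ 2 - W (n + 1) * W (n - 1) * W m ^ 2

lemma wardAt_flex {W : ℤ → R} {m n : ℤ} (h : WardAt W m n) {p q r s t u : ℤ}
    (hp : p = m + n) (hq : q = m - n) (hr : r = m + 1) (hs : s = m - 1)
    (ht : t = n + 1) (hu : u = n - 1) :
    W p * W q = W r * W s * W n ^ 2 - W t * W u * W m ^ 2 := by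
  subst hp hq hr hs ht hu
  exact h

lemma flexE {W : ℤ → R} {b : R}
    (hE : ∀ m, W (2 * m) * b
      = W (m - 1) ^ 2 * W m * W (m + 2) - W (m - 2) * W m * W (m + 1) ^ 2)
    (m : ℤ) {p q r s t : ℤ} (hp : p = 2 * m) (hq : q = m - 1) (hr : r = m + 2)
    (hs : s = m - 2) (ht : t = m + 1) :
    W p * b = W q ^ 2 * W m * W r - W s * W m * W t ^ 2 := by
  subst hp hq hr hs ht
  exact hE m

lemma flexO {W : ℤ → R}
    (hO : ∀ m, W (2 * m + 1) = W (m + 2) * W m ^ 3 - W (m - 1) * W (m + 1) ^ 3)
    (m : ℤ) {p q r s : ℤ} (hp : p = 2 * m + 1) (hq : q = m + 2) (hr : r = m - 1)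
    (hs : s = m + 1) :
    W p = W q * W m ^ 3 - W r * W s ^ 3 := by
  subst hp hq hr hs
  exact hO m

/-- The odd step. -/
lemma ward_step_odd (W : ℤ → R)
    (hO : ∀ m, W (2 * m + 1) = W (m + 2) * W m ^ 3 - W (m - 1) * W (m + 1) ^ 3)
    (m n k j : ℤ) (hm : m = k + j + 1) (hn : n = k - j)
    (e1 : WardAt W (k + 1) (j + 1)) (e2 : WardAt W k j)
    (e3 : WardAt W (k + 1) j) (e4 : WardAt W k (j + 1)) : WardAt W m n := by
  have e1' := wardAt_flex e1 (p := m + 1) (q := n) (r := k + 2) (s := k) (t := j + 2) (u := j)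
    (by omega) (by omega) (by omega) (by omega) (by omega) (by omega)
  have e2' := wardAt_flex e2 (p := m - 1) (q := n) (r := k + 1) (s := k - 1) (t := j + 1)
    (u := j - 1) (by omega) (by omega) (by omega) (by omega) (by omega) (by omega)
  have e3' := wardAt_flex e3 (p := m) (q := n + 1) (r := k + 2) (s := k) (t := j + 1)
    (u := j - 1) (by omega) (by omega) (by omega) (by omega) (by omega) (by omega)
  have e4' := wardAt_flex e4 (p := m) (q := n - 1) (r := k + 1) (s := k - 1) (t := j + 2)
    (u := j) (by omega) (by omega) (by omega) (by omega) (by omega) (by omega)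
  have o1 := flexO hO k (p := m + n) (q := k + 2) (r := k - 1) (s := k + 1)
    (by omega) (by omega) (by omega) (by omega)
  have o2 := flexO hO j (p := m - n) (q := j + 2) (r := j - 1) (s := j + 1)
    (by omega) (by omega) (by omega) (by omega)
  unfold WardAt
  generalize W (m + n) = Amn at *
  generalize W (m - n) = Bmn at *
  generalize W (m + 1) = Am1 at *
  generalize W (m - 1) = Am' at *
  generalize W (n + 1) = An1 at *
  generalize W (n - 1) = An' at *
  generalize W m = Wm at *
  generalize W n = Wn at *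
  generalize W (k + 2) = k2 at *
  generalize W (k + 1) = k1 at *
  generalize W (k - 1) = k' at *
  generalize W k = k0 at *
  generalize W (j + 2) = j2 at *
  generalize W (j + 1) = j1 at *
  generalize W (j - 1) = j' at *
  generalize W j = j0 at *
  linear_combination Bmn * o1 + (k2 * k0 ^ 3 - k' * k1 ^ 3) * o2
    - (Am' * Wn) * e1' - (k2 * k0 * j1 ^ 2 - j2 * j0 * k1 ^ 2) * e2'
    + (Wm * An') * e3' + (k2 * k0 * j0 ^ 2 - j1 * j' * k1 ^ 2) * e4'

/-- The even step (for `n ≥ 3`). -/
lemma ward_step_even (W : ℤ → R) (b c : R) (h1 : W 1 = 1) (h2 : W 2 = b) (h3 : W 3 = c)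
    (hE : ∀ m, W (2 * m) * b
      = W (m - 1) ^ 2 * W m * W (m + 2) - W (m - 2) * W m * W (m + 1) ^ 2)
    (hb : ∀ x y : R, b * x = b * y → x = y)
    (m n k j : ℤ) (hm : m = k + j) (hn : n = k - j)
    (e1 : WardAt W (k + 1) (j + 1)) (e2 : WardAt W (k - 1) (j - 1))
    (e3 : WardAt W (k + 1) (j - 1)) (e4 : WardAt W (k - 1) (j + 1))
    (s1 : WardAt W m 2) (s2 : WardAt W n 2) : WardAt W m n := by
  have e1' := wardAt_flex e1 (p := m + 2) (q := n) (r := k + 2) (s := k) (t := j + 2) (u := j)
    (by omega) (by omega) (by omega) (by omega) (by omega) (by omega)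
  have e2' := wardAt_flex e2 (p := m - 2) (q := n) (r := k) (s := k - 2) (t := j)
    (u := j - 2) (by omega) (by omega) (by omega) (by omega) (by omega) (by omega)
  have e3' := wardAt_flex e3 (p := m) (q := n + 2) (r := k + 2) (s := k) (t := j)
    (u := j - 2) (by omega) (by omega) (by omega) (by omega) (by omega) (by omega)
  have e4' := wardAt_flex e4 (p := m) (q := n - 2) (r := k) (s := k - 2) (t := j + 2)
    (u := j) (by omega) (by omega) (by omega) (by omega) (by omega) (by omega)
  have s1' := wardAt_flex s1 (p := m + 2) (q := m - 2) (r := m + 1) (s := m - 1) (t := 3)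
    (u := 1) (by omega) (by omega) (by omega) (by omega) (by omega) (by omega)
  have s2' := wardAt_flex s2 (p := n + 2) (q := n - 2) (r := n + 1) (s := n - 1) (t := 3)
    (u := 1) (by omega) (by omega) (by omega) (by omega) (by omega) (by omega)
  have E1 := flexE hE k (p := m + n) (q := k - 1) (r := k + 2) (s := k - 2) (t := k + 1)
    (by omega) (by omega) (by omega) (by omega) (by omega)
  have E2 := flexE hE j (p := m - n) (q := j - 1) (r := j + 2) (s := j - 2) (t := j + 1)
    (by omega) (by omega) (by omega) (by omega) (by omega)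
  rw [h1, h2, h3] at s1' s2'
  unfold WardAt
  apply hb
  apply hb
  generalize W (m + n) = Amn at *
  generalize W (m - n) = Bmn at *
  generalize W (m + 2) = Am2 at *
  generalize W (m - 2) = Am2' at *
  generalize W (n + 2) = An2 at *
  generalize W (n - 2) = An2' at *
  generalize W (m + 1) = Am1 at *
  generalize W (m - 1) = Am' at *
  generalize W (n + 1) = An1 at *
  generalize W (n - 1) = An' at *
  generalize W m = Wm at *
  generalize W n = Wn at *
  generalize W (k + 2) = k2 at *
  generalize W (k + 1) = k1 at *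
  generalize W (k - 1) = k' at *
  generalize W (k - 2) = k2' at *
  generalize W k = k0 at *
  generalize W (j + 2) = j2 at *
  generalize W (j + 1) = j1 at *
  generalize W (j - 1) = j' at *
  generalize W (j - 2) = j2' at *
  generalize W j = j0 at *
  linear_combination (Bmn * b) * E1 + (k' ^ 2 * k0 * k2 - k2' * k0 * k1 ^ 2) * E2
    - (Am2' * Wn) * e1' - (k2 * k0 * j1 ^ 2 - j2 * j0 * k1 ^ 2) * e2'
    + (Wm * An2') * e3' + (k2 * k0 * j' ^ 2 - j0 * j2' * k1 ^ 2) * e4'
    + Wn ^ 2 * s1' - Wm ^ 2 * s2'

/-- The Somos-4 step at an even index `m = 2 i`. -/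
lemma ward_step_somos (W : ℤ → R) (b c : R) (h1 : W 1 = 1) (h2 : W 2 = b) (h3 : W 3 = c)
    (hE : ∀ m, W (2 * m) * b
      = W (m - 1) ^ 2 * W m * W (m + 2) - W (m - 2) * W m * W (m + 1) ^ 2)
    (hO : ∀ m, W (2 * m + 1) = W (m + 2) * W m ^ 3 - W (m - 1) * W (m + 1) ^ 3)
    (hb : ∀ x y : R, b * x = b * y → x = y)
    (m i : ℤ) (hm : m = 2 * i)
    (sp : WardAt W (i + 1) 2) (sm : WardAt W (i - 1) 2) (s0 : WardAt W i 2) :
    WardAt W m 2 := by
  have sp' := wardAt_flex sp (p := i + 3) (q := i - 1) (r := i + 2) (s := i) (t := 3)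
    (u := 1) (by omega) (by omega) (by omega) (by omega) (by omega) (by omega)
  have sm' := wardAt_flex sm (p := i + 1) (q := i - 3) (r := i) (s := i - 2) (t := 3)
    (u := 1) (by omega) (by omega) (by omega) (by omega) (by omega) (by omega)
  have s0' := wardAt_flex s0 (p := i + 2) (q := i - 2) (r := i + 1) (s := i - 1) (t := 3)
    (u := 1) (by omega) (by omega) (by omega) (by omega) (by omega) (by omega)
  have Ep := flexE hE (i + 1) (p := m + 2) (q := i) (r := i + 3) (s := i - 1) (t := i + 2)
    (by omega) (by omega) (by omega) (by omega) (by omega)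
  have Em := flexE hE (i - 1) (p := m - 2) (q := i - 2) (r := i + 1) (s := i - 3) (t := i)
    (by omega) (by omega) (by omega) (by omega) (by omega)
  have E0 := flexE hE i (p := m) (q := i - 1) (r := i + 2) (s := i - 2) (t := i + 1)
    (by omega) (by omega) (by omega) (by omega) (by omega)
  have Op := flexO hO i (p := m + 1) (q := i + 2) (r := i - 1) (s := i + 1)
    (by omega) (by omega) (by omega) (by omega)
  have Om := flexO hO (i - 1) (p := m - 1) (q := i + 1) (r := i - 2) (s := i)
    (by omega) (by omega) (by omega) (by omega)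
  rw [h1, h2, h3] at sp' sm' s0'
  have g : W (m + 2) * W (m - 2) = W (m + 1) * W (m - 1) * b ^ 2 - c * 1 * W m ^ 2 := by
    apply hb
    apply hb
    generalize W (m + 2) = Am2 at *
    generalize W (m - 2) = Am2' at *
    generalize W (m + 1) = Am1 at *
    generalize W (m - 1) = Am' at *
    generalize W m = Wm at *
    generalize W (i + 3) = s at *
    generalize W (i + 2) = z at *
    generalize W (i + 1) = y at *
    generalize W (i - 1) = v at *
    generalize W (i - 2) = u at *
    generalize W (i - 3) = t at *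
    generalize W i = w at *
    linear_combination (Am2' * b) * Ep + (w ^ 2 * y * s - v * y * z ^ 2) * Em
      - b ^ 4 * Am' * Op - b ^ 4 * (z * w ^ 3 - v * y ^ 3) * Om
      + c * (Wm * b + (v ^ 2 * w * z - u * w * y ^ 2)) * E0
      + w ^ 2 * (u ^ 2 * y ^ 2 - y * t * w ^ 2) * sp'
      - w ^ 2 * (w ^ 2 * (z * w * b ^ 2 - c * 1 * y ^ 2) - v ^ 2 * z ^ 2) * sm'
      + (-z * u * v ^ 2 * y ^ 2 + z * v ^ 2 * w ^ 3 * b ^ 2 + u * w ^ 3 * y ^ 2 * b ^ 2
          - v ^ 3 * y ^ 3 * b ^ 2 - v ^ 2 * w ^ 2 * y ^ 2 * c) * s0'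
  unfold WardAt
  have e21 : (2 : ℤ) + 1 = 3 := by norm_num
  have e21' : (2 : ℤ) - 1 = 1 := by norm_num
  rw [e21, e21', h1, h2, h3]
  linear_combination g

section Main

variable (W : ℤ → R) (b c : R)

lemma wardAt_symm (hneg : ∀ n, W (-n) = -W n) {m n : ℤ} (h : WardAt W m n) : WardAt W n m := by
  unfold WardAt at h ⊢
  have e1 : W (n + m) = W (m + n) := by rw [add_comm]
  have e2 : W (n - m) = -W (m - n) := by rw [← hneg]; congr 1; ring
  rw [e1, e2]
  linear_combination -h

lemma wardAt_neg_left (hneg : ∀ n, W (-n) = -W n) {m n : ℤ} (h : WardAt W m n) :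
    WardAt W (-m) n := by
  unfold WardAt at h ⊢
  have e1 : W (-m + n) = -W (m - n) := by rw [← hneg]; congr 1; ring
  have e2 : W (-m - n) = -W (m + n) := by rw [← hneg]; congr 1; ring
  have e3 : W (-m + 1) = -W (m - 1) := by rw [← hneg]; congr 1; ring
  have e4 : W (-m - 1) = -W (m + 1) := by rw [← hneg]; congr 1; ring
  rw [e1, e2, e3, e4, hneg]
  linear_combination h

lemma wardAt_neg_right (hneg : ∀ n, W (-n) = -W n) {m n : ℤ} (h : WardAt W m n) :
    WardAt W m (-n) :=
  wardAt_symm W hneg (wardAt_neg_left W hneg (wardAt_symm W hneg h))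

variable (h0 : W 0 = 0) (h1 : W 1 = 1) (h2 : W 2 = b) (h3 : W 3 = c)
  (hneg : ∀ n, W (-n) = -W n)
  (hE : ∀ m, W (2 * m) * b
    = W (m - 1) ^ 2 * W m * W (m + 2) - W (m - 2) * W m * W (m + 1) ^ 2)
  (hO : ∀ m, W (2 * m + 1) = W (m + 2) * W m ^ 3 - W (m - 1) * W (m + 1) ^ 3)
  (hb : ∀ x y : R, b * x = b * y → x = y)

include h0 h1 h2 h3 hneg hE hO hb

lemma ward_cases (m n : ℤ)
    (IH : ∀ m' n' : ℤ, 0 ≤ n' → n' ≤ m' → m' + n' < m + n → WardAt W m' n')
    (hn : 0 ≤ n) (hnm : n ≤ m) : WardAt W m n := by
  have hm1 : W (-1) = -1 := by rw [hneg, h1]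
  by_cases n0 : n = 0
  · subst n0
    unfold WardAt
    rw [add_zero, sub_zero, zero_add, zero_sub, h0, h1, hm1]
    ring
  by_cases n1 : n = 1
  · subst n1
    unfold WardAt
    have e : (1 : ℤ) + 1 = 2 := by norm_num
    rw [e, sub_self, h0, h1, h2]
    ring
  by_cases d0 : m = n
  · subst d0
    unfold WardAt
    rw [sub_self, h0]
    ring
  by_cases d1 : m = n + 1
  · have o := flexO hO n (p := m + n) (q := m + 1) (r := n - 1) (s := m)
      (by omega) (by omega) (by omega) (by omega)
    have e1 : W (m - n) = 1 := by rw [← h1]; congr 1; omega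
    have e2 : W (m - 1) = W n := by congr 1; omega
    have e3 : W (n + 1) = W m := by congr 1; omega
    unfold WardAt
    rw [e1, e2, e3, o]
    ring
  by_cases d2 : m = n + 2
  · have o := flexE hE (n + 1) (p := m + n) (q := n) (r := m + 1) (s := n - 1) (t := m)
      (by omega) (by omega) (by omega) (by omega) (by omega)
    have e1 : W (m - n) = b := by rw [← h2]; congr 1; omega
    have e2 : W (m - 1) = W (n + 1) := by congr 1; omega
    unfold WardAt
    rw [e1, e2, o]
    ring
  have hn2 : 2 ≤ n := by omega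
  have hmn : n + 3 ≤ m := by omega
  rcases Int.even_or_odd' (m + n) with ⟨k, hk | hk⟩
  · by_cases n2 : n = 2
    · subst n2
      refine ward_step_somos W b c h1 h2 h3 hE hO hb m (k - 1) (by omega)
        (IH _ _ (by omega) (by omega) (by omega)) (IH _ _ (by omega) (by omega) (by omega))
        (IH _ _ (by omega) (by omega) (by omega))
    · refine ward_step_even W b c h1 h2 h3 hE hb m n k (k - n) (by omega) (by omega)
        (IH _ _ (by omega) (by omega) (by omega)) (IH _ _ (by omega) (by omega) (by omega))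
        (IH _ _ (by omega) (by omega) (by omega)) (IH _ _ (by omega) (by omega) (by omega))
        (IH _ _ (by omega) (by omega) (by omega)) (IH _ _ (by omega) (by omega) (by omega))
  · refine ward_step_odd W hO m n k (k - n) (by omega) (by omega)
      (IH _ _ (by omega) (by omega) (by omega)) (IH _ _ (by omega) (by omega) (by omega))
      (IH _ _ (by omega) (by omega) (by omega)) (IH _ _ (by omega) (by omega) (by omega))

lemma ward_nonneg : ∀ S : ℕ, ∀ m n : ℤ, 0 ≤ n → n ≤ m → m + n < S → WardAt W m n := by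
  intro S
  induction S with
  | zero => intro m n hn hnm hS; omega
  | succ S ih =>
    intro m n hn hnm hS
    refine ward_cases W b c h0 h1 h2 h3 hneg hE hO hb m n ?_ hn hnm
    intro m' n' hn' hnm' hlt
    exact ih m' n' hn' hnm' (by omega)

/-- **Ward's identity** for a sequence satisfying the even/odd recurrences of a normalised
elliptic divisibility sequence, when `b` is cancellable. -/
theorem ward_of_rec (m n : ℤ) : WardAt W m n := by
  have key : ∀ m n : ℤ, 0 ≤ n → n ≤ m → WardAt W m n := fun m n hn hnm =>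
    ward_nonneg W b c h0 h1 h2 h3 hneg hE hO hb (m + n + 1).toNat m n hn hnm (by omega)
  have key2 : ∀ m n : ℤ, 0 ≤ n → 0 ≤ m → WardAt W m n := by
    intro m n hn hm
    rcases le_total n m with h | h
    · exact key m n hn h
    · exact wardAt_symm W hneg (key n m hm h)
  rcases le_total 0 m with hm | hm <;> rcases le_total 0 n with hn | hn
  · exact key2 m n hn hm
  · have := wardAt_neg_right W hneg (key2 m (-n) (by omega) hm)
    rwa [neg_neg] at this
  · have := wardAt_neg_left W hneg (key2 (-m) n hn (by omega))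
    rwa [neg_neg] at this
  · have := wardAt_neg_left W hneg (wardAt_neg_right W hneg (key2 (-m) (-n) (by omega) (by omega)))
    rwa [neg_neg, neg_neg] at this

end Main

section NormEDS

open MvPolynomial

/-- Ward's identity in the universal case. -/
lemma ward_universal (m n : ℤ) :
    WardAt (normEDS (X 0 : MvPolynomial (Fin 3) ℤ) (X 1) (X 2)) m n := by
  refine ward_of_rec _ (X 0) (X 1) (normEDS_zero _ _ _) (normEDS_one _ _ _) (normEDS_two _ _ _)
    (normEDS_three _ _ _) (normEDS_neg _ _ _) (normEDS_even _ _ _) (normEDS_odd _ _ _) ?_ m n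
  intro x y h
  exact mul_left_cancel₀ (X_ne_zero (0 : Fin 3)) h

/-- **Ward's identity** for `normEDS` over any commutative ring. -/
theorem normEDS_ward (b c d : R) (m n : ℤ) :
    normEDS b c d (m + n) * normEDS b c d (m - n)
      = normEDS b c d (m + 1) * normEDS b c d (m - 1) * normEDS b c d n ^ 2
        - normEDS b c d (n + 1) * normEDS b c d (n - 1) * normEDS b c d m ^ 2 := by
  have h := ward_universal m n
  unfold WardAt at h
  have h' := congrArg (MvPolynomial.aeval (R := ℤ) (![b, c, d] : Fin 3 → R)) h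
  simpa [map_normEDS] using h'

/-- The three-index elliptic sequence relation for `normEDS`. -/
theorem normEDS_rel (b c d : R) (p q r : ℤ) :
    normEDS b c d (p + q) * normEDS b c d (p - q) * normEDS b c d r ^ 2
      - normEDS b c d (p + r) * normEDS b c d (p - r) * normEDS b c d q ^ 2
      + normEDS b c d (q + r) * normEDS b c d (q - r) * normEDS b c d p ^ 2 = 0 := by
  have h1 := normEDS_ward b c d p q
  have h2 := normEDS_ward b c d p r
  have h3 := normEDS_ward b c d q r
  linear_combination normEDS b c d r ^ 2 * h1 - normEDS b c d q ^ 2 * h2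
    + normEDS b c d p ^ 2 * h3

/-- The Somos-4 relation for `normEDS`. -/
theorem normEDS_somos4 (b c d : R) (n : ℤ) :
    normEDS b c d (n + 2) * normEDS b c d (n - 2)
      = b ^ 2 * normEDS b c d (n + 1) * normEDS b c d (n - 1) - c * normEDS b c d n ^ 2 := by
  have h := normEDS_ward b c d n 2
  have e1 : (2 : ℤ) + 1 = 3 := by norm_num
  have e2 : (2 : ℤ) - 1 = 1 := by norm_num
  rw [e1, e2, normEDS_one, normEDS_two, normEDS_three] at h
  linear_combination h

end NormEDS

end Fermat.Agent.S13.Ward
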