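import Mathlib
import Fermat.Agent.S13.EDS.H2_Ward
import Fermat.Agent.S13.EDS.H10_GroupLaw

/-!
# S13 / EDS hedge (helper10): the multiplication formula at a point

`W` a Weierstrass curve over a field `F` (general `a_i`), `P` a point of `W`,
`wseq P k = normEDS (ψ₂ P) (Ψ₃ (x P)) (preΨ₄ (x P)) k` (`= ψ_k(P)`).

* `mulFormula` : if `j • P ≠ 0` for `1 ≤ j ≤ k` then `wseq P k ≠ 0` and
  `wseq P (k+1) * wseq P (k-1) = (x(P) - x(k • P)) * wseq P k ^ 2`;
* `wseq_eq_zero_of_order` : if `P` has exact order `n ≥ 2` then `wseq P n = 0`;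
* `exists_zsmul_eq_zero_of_wseq` : if `wseq P n = 0`, `n ≥ 1`, then `j • P = 0` for some
  `1 ≤ j ≤ n`;
* `wseq_some` : `wseq (some x y h) k = (W.preΨ k).eval x * (if Even k then 2y + a₁x + a₃ else 1)`.
-/

set_option autoImplicit false

open WeierstrassCurve WeierstrassCurve.Affine Fermat.Agent.S13.EDS.GL

namespace Fermat.Agent.S13.EDS.Mul

variable {F : Type*} [Field F]

/-- The algebraic induction step of the multiplication formula. -/
lemma step (w X : ℤ → F) (b c x : F) (n : ℤ)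
    (S : w (n + 2) * w (n - 2) = b ^ 2 * w (n + 1) * w (n - 1) - c * w n ^ 2)
    (Qn : w (n + 1) * w (n - 1) = (x - X n) * w n ^ 2)
    (Qn1 : w n * w (n - 2) = (x - X (n - 1)) * w (n - 1) ^ 2)
    (Cen : (X (n + 1) - x) * (X (n - 1) - x) * (X n - x) ^ 2 = -b ^ 2 * (X n - x) - c)
    (h2 : w (n - 2) ≠ 0) (h1 : w (n - 1) ≠ 0) :
    w (n + 2) * w n = (x - X (n + 1)) * w (n + 1) ^ 2 := by
  have h : w (n - 2) * w (n - 1) ^ 2 ≠ 0 := mul_ne_zero h2 (pow_ne_zero 2 h1)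
  apply mul_left_cancel₀ h
  linear_combination (w (n - 1) ^ 2 * w n) * S + (b ^ 2 * w (n - 1) ^ 2 * w n) * Qn
    - ((x - X (n + 1)) * w (n - 2) * (w (n + 1) * w (n - 1) + (x - X n) * w n ^ 2)) * Qn
    - ((x - X (n + 1)) * (x - X n) ^ 2 * w n ^ 3) * Qn1
    - (w (n - 1) ^ 2 * w n ^ 3) * Cen

variable {W : WeierstrassCurve.Affine F}

/-- `wseq P k = ψ_k(P)`: the normalised EDS attached to the point `P`. -/
noncomputable def wseq (P : W.Point) (k : ℤ) : F :=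
  normEDS (ptPsi P) (W.Ψ₃.eval (ptX P)) (W.preΨ₄.eval (ptX P)) k

@[simp] lemma wseq_zero (P : W.Point) : wseq P 0 = 0 := normEDS_zero ..
@[simp] lemma wseq_one (P : W.Point) : wseq P 1 = 1 := normEDS_one ..
@[simp] lemma wseq_two (P : W.Point) : wseq P 2 = ptPsi P := normEDS_two ..
@[simp] lemma wseq_three (P : W.Point) : wseq P 3 = W.Ψ₃.eval (ptX P) := normEDS_three ..
@[simp] lemma wseq_four (P : W.Point) : wseq P 4 = W.preΨ₄.eval (ptX P) * ptPsi P :=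
  normEDS_four ..

lemma wseq_neg (P : W.Point) (n : ℤ) : wseq P (-n) = -wseq P n := normEDS_neg ..

lemma wseq_somos (P : W.Point) (n : ℤ) :
    wseq P (n + 2) * wseq P (n - 2)
      = ptPsi P ^ 2 * wseq P (n + 1) * wseq P (n - 1) - W.Ψ₃.eval (ptX P) * wseq P n ^ 2 :=
  Fermat.Agent.S13.Ward.normEDS_somos4 ..

/-- Ward's identity for `wseq`. -/
lemma wseq_ward (P : W.Point) (m n : ℤ) :
    wseq P (m + n) * wseq P (m - n)
      = wseq P (m + 1) * wseq P (m - 1) * wseq P n ^ 2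
        - wseq P (n + 1) * wseq P (n - 1) * wseq P m ^ 2 :=
  Fermat.Agent.S13.Ward.normEDS_ward ..

/-- `ψ_k` at an affine point in terms of Mathlib's `preΨ`. -/
theorem wseq_some {x y : F} (h : W.Nonsingular x y) (k : ℤ) :
    wseq (Point.some x y h) k
      = (W.preΨ k).eval x * (if Even k then 2 * y + W.a₁ * x + W.a₃ else 1) := by
  have hsq : (2 * y + W.a₁ * x + W.a₃) ^ 4 = (W.Ψ₂Sq.eval x) ^ 2 := by
    rw [← psi_sq_poly h.1]; ring
  have e : (W.preΨ k).eval x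
      = preNormEDS ((2 * y + W.a₁ * x + W.a₃) ^ 4) (W.Ψ₃.eval x) (W.preΨ₄.eval x) k := by
    rw [WeierstrassCurve.preΨ, hsq]
    have := map_preNormEDS (Polynomial.evalRingHom x) (W.Ψ₂Sq ^ 2) W.Ψ₃ W.preΨ₄ k
    simp only [Polynomial.coe_evalRingHom, Polynomial.eval_pow] at this
    exact this
  rw [wseq, ptPsi_some, ptX_some, normEDS, e]

/-- For odd `k`, `ψ_k(P) = preΨ_k(x(P))`. -/
theorem wseq_some_of_odd {x y : F} (h : W.Nonsingular x y) {k : ℤ} (hk : Odd k) :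
    wseq (Point.some x y h) k = (W.preΨ k).eval x := by
  rw [wseq_some, if_neg (Int.not_even_iff_odd.2 hk), mul_one]

/-- `ψ_k(P)^2 = ΨSq_k(x(P))`. -/
theorem wseq_some_sq {x y : F} (h : W.Nonsingular x y) (k : ℤ) :
    wseq (Point.some x y h) k ^ 2 = (W.ΨSq k).eval x := by
  rw [wseq_some, WeierstrassCurve.ΨSq, Polynomial.eval_mul, Polynomial.eval_pow, mul_pow]
  split_ifs with hk
  · rw [psi_sq_poly h.1]
  · simp

variable [DecidableEq F]

/-- The relation `ψ_{n+1} ψ_{n-1} = (x - x(nP)) ψ_n^2` at `P`. -/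
def QRel (P : W.Point) (n : ℤ) : Prop :=
  wseq P (n + 1) * wseq P (n - 1) = (ptX P - ptX (n • P)) * wseq P n ^ 2

/-- No multiple `j • P`, `1 ≤ j ≤ k`, vanishes. -/
def NoTors (P : W.Point) (k : ℤ) : Prop :=
  ∀ j : ℤ, 1 ≤ j → j ≤ k → j • P ≠ 0

lemma NoTors.mono {P : W.Point} {k l : ℤ} (H : NoTors P k) (h : l ≤ k) : NoTors P l :=
  fun j h1 h2 => H j h1 (h2.trans h)

lemma NoTors.ne_zero {P : W.Point} {k : ℤ} (H : NoTors P k) (hk : 1 ≤ k) : P ≠ 0 := by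
  have := H 1 le_rfl hk
  rwa [one_zsmul] at this

lemma ptX_zsmul_ne {P : W.Point} (n : ℤ) (hP : P ≠ 0) (h0 : n • P ≠ 0)
    (hm : (n - 1) • P ≠ 0) (hp : (n + 1) • P ≠ 0) : ptX (n • P) ≠ ptX P := by
  intro h
  rcases (ptX_eq_iff h0 hP).1 h with h | h
  · apply hm
    rw [sub_one_zsmul, h, add_neg_cancel]
  · apply hp
    rw [add_one_zsmul, h, neg_add_cancel]

lemma two_zsmul_ne {P : W.Point} (h : (2 : ℤ) • P ≠ 0) : (2 : ℕ) • P ≠ 0 := by
  intro h'
  apply h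
  rw [← h']
  exact_mod_cast natCast_zsmul P 2

/-- `Q(1)`. -/
lemma qRel_one (P : W.Point) : QRel P 1 := by
  simp [QRel]

/-- `Q(2)`. -/
lemma qRel_two {P : W.Point} (H : NoTors P 2) : QRel P 2 := by
  have hP : P ≠ 0 := H.ne_zero (by norm_num)
  have h2 : (2 : ℕ) • P ≠ 0 := two_zsmul_ne (H 2 (by norm_num) le_rfl)
  have e : (2 : ℤ) • P = (2 : ℕ) • P := by exact_mod_cast natCast_zsmul P 2
  have := dbl_X hP h2
  simp only [QRel, e]
  norm_num
  rw [this]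

lemma wseq_two_ne {P : W.Point} (H : NoTors P 2) : wseq P 2 ≠ 0 := by
  have hP : P ≠ 0 := H.ne_zero (by norm_num)
  have h2 : (2 : ℕ) • P ≠ 0 := two_zsmul_ne (H 2 (by norm_num) le_rfl)
  rw [wseq_two]
  exact fun h => h2 ((two_nsmul_eq_zero_iff hP).2 h)

/-- Non-vanishing propagates: `Q(n)`, `w n ≠ 0`, `x(nP) ≠ x(P)` give `w (n+1) ≠ 0`. -/
lemma wseq_succ_ne {P : W.Point} (n : ℤ) (hQ : QRel P n) (hw : wseq P n ≠ 0)
    (hx : ptX (n • P) ≠ ptX P) : wseq P (n + 1) ≠ 0 := by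
  intro h
  rw [QRel, h, zero_mul] at hQ
  have := mul_ne_zero (sub_ne_zero.2 (Ne.symm hx)) (pow_ne_zero 2 hw)
  exact this hQ.symm

/-- `Q(3)`. -/
lemma qRel_three {P : W.Point} (H : NoTors P 3) : QRel P 3 := by
  have hP : P ≠ 0 := H.ne_zero (by norm_num)
  have h2z : (2 : ℤ) • P ≠ 0 := H 2 (by norm_num) (by norm_num)
  have h3z : (3 : ℤ) • P ≠ 0 := H 3 (by norm_num) (by norm_num)
  have h2 : (2 : ℕ) • P ≠ 0 := two_zsmul_ne h2z
  have e : (2 : ℤ) • P = (2 : ℕ) • P := by exact_mod_cast natCast_zsmul P 2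
  have hb : ptPsi P ≠ 0 := fun h => h2 ((two_nsmul_eq_zero_iff hP).2 h)
  have h1z : ((2 : ℤ) - 1) • P ≠ 0 := by norm_num; exact hP
  have h3z' : ((2 : ℤ) + 1) • P ≠ 0 := by norm_num; exact h3z
  have hx : ptX ((2 : ℤ) • P) ≠ ptX P := ptX_zsmul_ne 2 hP h2z h1z h3z'
  have G1 := add_sub_X h2z hP hx
  have e3 : (2 : ℤ) • P + P = (3 : ℤ) • P := by
    rw [← add_one_zsmul]; norm_num
  have e1 : (2 : ℤ) • P - P = P := by
    rw [sub_eq_add_neg, ← sub_one_zsmul]; norm_num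
  rw [e3, e1] at G1
  have G3 := dbl_X hP h2
  have G4 := dbl_psi hP h2
  rw [← e] at G3 G4
  simp only [QRel]
  norm_num
  rw [← G3, ← G4]
  linear_combination (ptPsi P ^ 4) * G1


/-- The induction step: `Q(n-1)`, `Q(n)` and non-vanishing give `Q(n+1)`. -/
lemma qRel_succ {P : W.Point} (n : ℤ) (hP : P ≠ 0) (h0 : n • P ≠ 0)
    (hx : ptX (n • P) ≠ ptX P)
    (Qn : QRel P n) (Qn1 : QRel P (n - 1))
    (h2 : wseq P (n - 2) ≠ 0) (h1 : wseq P (n - 1) ≠ 0) : QRel P (n + 1) := by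
  have Cen := centered_X h0 hP hx
  have eA : n • P + P = (n + 1) • P := (add_one_zsmul P n).symm
  have eS : n • P - P = (n - 1) • P := by rw [sub_eq_add_neg, ← sub_one_zsmul]
  rw [eA, eS, ← ptPsi_sq_of_ne hP] at Cen
  have Qn1' : wseq P n * wseq P (n - 2) = (ptX P - ptX ((n - 1) • P)) * wseq P (n - 1) ^ 2 := by
    have := Qn1
    rw [QRel, sub_add_cancel, show n - 1 - 1 = n - 2 by ring] at this
    exact this
  have := step (wseq P) (fun m => ptX (m • P)) (ptPsi P) (W.Ψ₃.eval (ptX P)) (ptX P) n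
    (wseq_somos P n) Qn Qn1' Cen h2 h1
  rw [QRel, show n + 1 + 1 = n + 2 by ring, add_sub_cancel_right]
  exact this

/-- **The multiplication formula at a point** (integer indices): if `j • P ≠ 0` for
`1 ≤ j ≤ k` then `ψ_k(P) ≠ 0` and `ψ_{k+1}(P) ψ_{k-1}(P) = (x(P) - x(kP)) ψ_k(P)^2`. -/
theorem mulFormula_nat (P : W.Point) :
    ∀ k : ℕ, 1 ≤ k → NoTors P k → wseq P k ≠ 0 ∧ QRel P k := by
  intro k
  induction k using Nat.strong_induction_on with
  | _ k ih =>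
    intro hk H
    have key : ∀ m : ℕ, 1 ≤ m → m < k → wseq P (m : ℤ) ≠ 0 ∧ QRel P (m : ℤ) :=
      fun m h1 h2 => ih m h2 h1 (H.mono (by exact_mod_cast h2.le))
    rcases (by omega : k = 1 ∨ k = 2 ∨ k = 3 ∨ 4 ≤ k) with rfl | rfl | rfl | h4
    · exact ⟨by simp, by simpa using qRel_one P⟩
    · have H2 : NoTors P 2 := by simpa using H
      exact ⟨by simpa using wseq_two_ne H2, by simpa using qRel_two H2⟩
    · have H3 : NoTors P 3 := by simpa using H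
      have H2 : NoTors P 2 := H3.mono (by norm_num)
      have hP : P ≠ 0 := H3.ne_zero (by norm_num)
      have hx : ptX ((2 : ℤ) • P) ≠ ptX P :=
        ptX_zsmul_ne 2 hP (H3 2 (by norm_num) (by norm_num))
          (by norm_num; exact hP) (by norm_num; exact H3 3 (by norm_num) (by norm_num))
      have h3 := wseq_succ_ne 2 (qRel_two H2) (wseq_two_ne H2) hx
      norm_num at h3
      exact ⟨by simpa using h3, by simpa using qRel_three H3⟩
    · obtain ⟨i, rfl⟩ : ∃ i, k = i + 3 := ⟨k - 3, by omega⟩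
      have hi : 1 ≤ i := by omega
      have e3 : ((i + 3 : ℕ) : ℤ) = ((i : ℤ) + 2) + 1 := by push_cast; ring
      have e2 : ((i + 2 : ℕ) : ℤ) = (i : ℤ) + 2 := by push_cast; ring
      have e1 : ((i + 1 : ℕ) : ℤ) = ((i : ℤ) + 2) - 1 := by push_cast; ring
      have e0 : ((i : ℕ) : ℤ) = ((i : ℤ) + 2) - 2 := by ring
      rw [e3] at H ⊢
      obtain ⟨w2, Q2⟩ := key (i + 2) (by omega) (by omega)
      obtain ⟨w1, Q1⟩ := key (i + 1) (by omega) (by omega)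
      obtain ⟨w0, -⟩ := key i hi (by omega)
      rw [e2] at w2 Q2
      rw [e1] at w1 Q1
      rw [e0] at w0
      generalize (i : ℤ) + 2 = n at *
      have hn : 3 ≤ n := by omega
      have hP : P ≠ 0 := H.ne_zero (by omega)
      have h0 : n • P ≠ 0 := H n (by omega) (by omega)
      have hx : ptX (n • P) ≠ ptX P :=
        ptX_zsmul_ne n hP h0 (H (n - 1) (by omega) (by omega)) (H (n + 1) (by omega) le_rfl)
      exact ⟨wseq_succ_ne n Q2 w2 hx, qRel_succ n hP h0 hx Q2 Q1 w0 w1⟩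

/-- **The multiplication formula at a point**: if `j • P ≠ 0` for `1 ≤ j ≤ k` then
`ψ_k(P) ≠ 0` and `ψ_{k+1}(P) ψ_{k-1}(P) = (x(P) - x(kP)) ψ_k(P)^2`. -/
theorem mulFormula (P : W.Point) (k : ℕ) (hk : 1 ≤ k)
    (H : ∀ j : ℕ, 1 ≤ j → j ≤ k → j • P ≠ 0) :
    wseq P k ≠ 0 ∧
      wseq P (k + 1) * wseq P (k - 1) = (ptX P - ptX (k • P)) * wseq P k ^ 2 := by
  have H' : NoTors P k := by
    intro j h1 h2
    obtain ⟨m, rfl⟩ := Int.eq_ofNat_of_zero_le (by omega : 0 ≤ j)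
    rw [natCast_zsmul]
    exact H m (by exact_mod_cast h1) (by exact_mod_cast h2)
  obtain ⟨h1, h2⟩ := mulFormula_nat P k hk H'
  refine ⟨h1, ?_⟩
  rw [QRel, natCast_zsmul] at h2
  exact h2

/-- If `P` has exact order `n ≥ 2` then `ψ_n(P) = 0`. -/
theorem wseq_eq_zero_of_order (P : W.Point) (n : ℕ) (hn : 2 ≤ n) (h0 : n • P = 0)
    (H : ∀ j : ℕ, 1 ≤ j → j < n → j • P ≠ 0) : wseq P n = 0 := by
  have hP : P ≠ 0 := by
    have := H 1 le_rfl (by omega)
    rwa [one_nsmul] at this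
  rcases (by omega : n = 2 ∨ 3 ≤ n) with rfl | h3
  · have : wseq P 2 = 0 := by
      rw [wseq_two]
      exact (two_nsmul_eq_zero_iff hP).1 h0
    exact_mod_cast this
  · obtain ⟨m, rfl⟩ : ∃ m, n = m + 2 := ⟨n - 2, by omega⟩
    -- `Q(m+1)` : `w (m+2) * w m = (x - x((m+1)P)) * w (m+1)^2` and `(m+1) P = -P`
    obtain ⟨-, hQ⟩ := mulFormula P (m + 1) (by omega) (fun j h1 h2 => H j h1 (by omega))
    obtain ⟨hm, -⟩ := mulFormula P m (by omega) (fun j h1 h2 => H j h1 (by omega))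
    have e : (m + 1) • P = -P := by
      rw [eq_neg_iff_add_eq_zero, ← succ_nsmul]
      exact h0
    rw [e, ptX_neg, sub_self, zero_mul] at hQ
    have e2 : ((m + 1 : ℕ) : ℤ) + 1 = ((m + 2 : ℕ) : ℤ) := by push_cast; ring
    have e0 : ((m + 1 : ℕ) : ℤ) - 1 = (m : ℤ) := by push_cast; ring
    rw [e2, e0] at hQ
    exact (mul_eq_zero.1 hQ).resolve_right hm

/-- If `ψ_n(P) = 0` for some `n ≥ 1`, then `P` is killed by some `1 ≤ j ≤ n`. -/
theorem exists_nsmul_eq_zero_of_wseq (P : W.Point) (n : ℕ) (hn : 1 ≤ n)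
    (hw : wseq P n = 0) : ∃ j : ℕ, 1 ≤ j ∧ j ≤ n ∧ j • P = 0 := by
  by_contra hcon
  push Not at hcon
  exact (mulFormula P n hn (fun j h1 h2 => hcon j h1 h2)).1 hw

end Fermat.Agent.S13.EDS.Mul
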