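import Mathlib
import Fermat.Agent.S13.EDS.H2_Ward

/-!
# Zeros of `normEDS` and division polynomials at a point (helper2)

* `normEDS_ne_zero_of_not_dvd`: if `m ≥ 2` is the first zero of `W = normEDS b c d` (in a domain)
  and `W (m + 1) ≠ 0`, then `W n ≠ 0` for every `n` not divisible by `m`.
* `wSeq W x y n`: the value of the `n`-th division polynomial at the point `(x, y)`.
* `wSeq_succ_ne_zero`: non-degeneracy at a nonsingular point.
-/

set_option autoImplicit false

open Polynomial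

namespace Fermat.Agent.S13.Ward

section Domain

variable {R : Type*} [CommRing R] [IsDomain R]

/-- Non-vanishing away from the multiples of the first zero. -/
theorem normEDS_ne_zero_of_not_dvd (b c d : R) (m : ℤ) (hm2 : 2 ≤ m)
    (hmin : ∀ k : ℤ, 1 ≤ k → k < m → normEDS b c d k ≠ 0)
    (hm : normEDS b c d m = 0) (hm1 : normEDS b c d (m + 1) ≠ 0) :
    ∀ n : ℤ, ¬ m ∣ n → normEDS b c d n ≠ 0 := by
  have pos : ∀ N : ℕ, ∀ n : ℤ, 1 ≤ n → n < N → ¬ m ∣ n → normEDS b c d n ≠ 0 := by
    intro N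
    induction N with
    | zero => intro n h1 h2; omega
    | succ N ih =>
      intro n h1 hN hdvd
      by_cases hnm : n < m
      · exact hmin n h1 hnm
      have hne : n ≠ m := by
        rintro rfl
        exact hdvd dvd_rfl
      have hgt : m < n := by omega
      have hW := normEDS_ward b c d (n - m) m
      have e1 : n - m + m = n := by ring
      rw [e1, hm] at hW
      have hnm' : normEDS b c d (n - m) ≠ 0 := by
        refine ih (n - m) (by omega) (by omega) ?_
        intro h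
        exact hdvd ((dvd_sub_self_right).mp h)
      have hm' : normEDS b c d (m - 1) ≠ 0 := hmin (m - 1) (by omega) (by omega)
      intro h0
      rw [h0, zero_mul] at hW
      have : normEDS b c d (m + 1) * normEDS b c d (m - 1) * normEDS b c d (n - m) ^ 2 = 0 := by
        linear_combination hW
      simp only [mul_eq_zero, pow_eq_zero_iff, ne_eq, OfNat.ofNat_ne_zero, not_false_eq_true]
        at this
      tauto
  intro n hdvd
  rcases lt_trichotomy n 0 with h | h | h
  · have := pos (-n + 1).toNat (-n) (by omega) (by omega) (by rwa [dvd_neg])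
    rwa [normEDS_neg, neg_ne_zero] at this
  · subst h
    exact absurd (dvd_zero m) hdvd
  · exact pos (n + 1).toNat n (by omega) (by omega) hdvd

/-- Non-degeneracy (case `m ≥ 4`): two consecutive zeros force `c = 0`. -/
theorem normEDS_succ_ne_zero (b c d : R) (m : ℤ) (hc : c ≠ 0)
    (hm' : normEDS b c d (m - 1) ≠ 0) (hm : normEDS b c d m = 0) :
    normEDS b c d (m + 1) ≠ 0 := by
  have h := normEDS_somos4 b c d (m - 1)
  have e1 : m - 1 + 2 = m + 1 := by ring
  have e2 : m - 1 + 1 = m := by ring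
  rw [e1, e2, hm] at h
  intro h0
  rw [h0] at h
  have : c * normEDS b c d (m - 1) ^ 2 = 0 := by linear_combination h
  simp only [mul_eq_zero, pow_eq_zero_iff, ne_eq, OfNat.ofNat_ne_zero, not_false_eq_true] at this
  tauto

end Domain

section Curve

variable {K : Type*} [Field K] (W : WeierstrassCurve K)

/-- The value at `(x, y)` of the `n`-th division polynomial of `W`. -/
noncomputable def wSeq (x y : K) (n : ℤ) : K :=
  normEDS (2 * y + W.a₁ * x + W.a₃) (W.Ψ₃.eval x) (W.preΨ₄.eval x) n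

lemma preΨ₄_eq : W.preΨ₄
    = (6 * X ^ 2 + C W.b₂ * X + C W.b₄) * W.Ψ₃ - W.Ψ₂Sq ^ 2 := by
  have h := W.b_relation
  have h' : C (W.b₂ * W.b₆ - W.b₄ ^ 2) = C (4 * W.b₈) := by rw [h]
  simp only [C_sub, C_mul, C_pow, map_ofNat] at h'
  simp only [WeierstrassCurve.preΨ₄, WeierstrassCurve.Ψ₃, WeierstrassCurve.Ψ₂Sq, C_sub, C_mul,
    C_pow, map_ofNat]
  linear_combination (-X ^ 2) * h'

lemma eval_Ψ₂Sq_of_equation {x y : K} (h : W.toAffine.Equation x y) :
    W.Ψ₂Sq.eval x = (2 * y + W.a₁ * x + W.a₃) ^ 2 := by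
  rw [WeierstrassCurve.Affine.equation_iff] at h
  simp only [WeierstrassCurve.Ψ₂Sq, WeierstrassCurve.b₂, WeierstrassCurve.b₄,
    WeierstrassCurve.b₆, eval_add, eval_mul, eval_pow, eval_C, eval_X]
  linear_combination (-4 : K) * h

lemma eval_Ψ₃_of_two_torsion [CharZero K] {x y : K} (h : W.toAffine.Equation x y)
    (h2 : 2 * y + W.a₁ * x + W.a₃ = 0) :
    W.Ψ₃.eval x = -(W.a₁ * y - (3 * x ^ 2 + 2 * W.a₂ * x + W.a₄)) ^ 2 := by
  rw [WeierstrassCurve.Affine.equation_iff] at h
  simp only [WeierstrassCurve.Ψ₃, WeierstrassCurve.b₂, WeierstrassCurve.b₄,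
    WeierstrassCurve.b₆, WeierstrassCurve.b₈, eval_add, eval_mul, eval_pow, eval_C, eval_X,
    eval_ofNat]
  linear_combination
    ((y * W.a₁ ^ 2 - 6 * x ^ 2 * W.a₁ - (1 / 2) * x * W.a₁ ^ 3 - 4 * x * W.a₁ * W.a₂
        - (1 / 2) * W.a₁ ^ 2 * W.a₃ - 2 * W.a₁ * W.a₄) / 2
      + (3 * x + (W.a₁ ^ 2 + 4 * W.a₂) / 4) * (2 * y + W.a₁ * x + W.a₃)) * h2
    - 4 * (3 * x + (W.a₁ ^ 2 + 4 * W.a₂) / 4) * h

end Curve

end Fermat.Agent.S13.Ward
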