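import Mathlib
import Fermat.Agent.S13.EDS.H2_Period
import Fermat.Agent.S13.L2.H8_XPoints

/-!
# S13 / EDS route (helper18): the division-polynomial chain at a point

`W` a Weierstrass curve over a field `K` with `2 ≠ 0` (general `a₁, …, a₆`), `P ≠ 0` a point,
`x = x(P)`, `η = 2 y + a₁ x + a₃`, and

`w k := normEDS η (Ψ₃ x) (preΨ₄ x) k`   (the value at `P` of Mathlib's `k`-th division polynomial).

* `h18_centered` : `(x(A+P) - x)(x(A-P) - x)(x(A) - x)² = -Ψ₂Sq(x) (x(A) - x) - Ψ₃(x)`.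
* `h18_chain` : if `j • P ≠ 0` for `1 ≤ j ≤ n`, then for `1 ≤ k ≤ n`:
  `w k ≠ 0` and `(x(kP) - x) w(k)² = - w(k+1) w(k-1)`.
* `h18_w_order` : if `n ≥ 2` is the exact order of `P` then `w n = 0`, `w k ≠ 0` for `1 ≤ k < n`
  and `w (n+1) ≠ 0`.
* `h18_nsmul_eq_zero_iff` : for a prime `p`, `p • P = 0 ↔ w p = 0`.
* `h18_preΨ_root_iff` : for an odd prime `p` and a nonsingular point `(x, y)`,
  `p • (x, y) = 0 ↔ (W.preΨ p).eval x = 0`.

Inputs: helper2's Ward/Somos-4 identities for `normEDS` (`H2_Ward`, `H2_Period`) and helper8's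
`x`-only addition formulas (`L2/H8_XPoints`).
-/

set_option autoImplicit false
set_option linter.unusedSectionVars false

open WeierstrassCurve WeierstrassCurve.Affine Polynomial

namespace Fermat.Agent.S13.EDS.Chain

open Fermat.Agent.S05 Fermat.Agent.S13.L2.XOnly Fermat.Agent.S13.Ward

variable {K : Type*} [Field K] [DecidableEq K] {W : Affine K}

/-- The elliptic divisibility sequence at the point `P`. -/
noncomputable def h18w (W : Affine K) (P : W.Point) (n : ℤ) : K :=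
  normEDS (etac W P) (W.Ψ₃.eval (h8xc W P)) (W.preΨ₄.eval (h8xc W P)) n

theorem h18w_zero (P : W.Point) : h18w W P 0 = 0 := normEDS_zero _ _ _
theorem h18w_one (P : W.Point) : h18w W P 1 = 1 := normEDS_one _ _ _
theorem h18w_two (P : W.Point) : h18w W P 2 = etac W P := normEDS_two _ _ _
theorem h18w_three (P : W.Point) : h18w W P 3 = W.Ψ₃.eval (h8xc W P) := normEDS_three _ _ _
theorem h18w_four (P : W.Point) :
    h18w W P 4 = W.preΨ₄.eval (h8xc W P) * etac W P := normEDS_four _ _ _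

theorem h18_eval_Ψ₂Sq (x : K) :
    W.Ψ₂Sq.eval x = 4 * x ^ 3 + W.b₂ * x ^ 2 + 2 * W.b₄ * x + W.b₆ := by
  simp only [WeierstrassCurve.Ψ₂Sq, eval_add, eval_mul, eval_pow, eval_C, eval_X]

theorem h18_eval_Ψ₃ (x : K) :
    W.Ψ₃.eval x = 3 * x ^ 4 + W.b₂ * x ^ 3 + 3 * W.b₄ * x ^ 2 + 3 * W.b₆ * x + W.b₈ := by
  simp only [WeierstrassCurve.Ψ₃, eval_add, eval_mul, eval_pow, eval_C, eval_X, eval_ofNat]

theorem h18_eval_preΨ₄ (x : K) :
    W.preΨ₄.eval x = (6 * x ^ 2 + W.b₂ * x + W.b₄) * W.Ψ₃.eval x - W.Ψ₂Sq.eval x ^ 2 := by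
  rw [preΨ₄_eq]
  simp only [eval_add, eval_sub, eval_mul, eval_pow, eval_C, eval_X, eval_ofNat]

theorem h18_etac_sq {P : W.Point} (hP : P ≠ 0) :
    etac W P ^ 2 = W.Ψ₂Sq.eval (h8xc W P) := by
  rw [h18_eval_Ψ₂Sq, etac_sq hP]

/-- Somos-4 for the sequence at `P`. -/
theorem h18w_somos4 {P : W.Point} (hP : P ≠ 0) (n : ℤ) :
    h18w W P (n + 2) * h18w W P (n - 2) =
      W.Ψ₂Sq.eval (h8xc W P) * h18w W P (n + 1) * h18w W P (n - 1) -
        W.Ψ₃.eval (h8xc W P) * h18w W P n ^ 2 := by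
  rw [← h18_etac_sq hP]
  exact normEDS_somos4 _ _ _ n

/-- **Centered product formula** (general Weierstrass curve). -/
theorem h18_centered (h2 : (2 : K) ≠ 0) {A P : W.Point} (hA : A ≠ 0) (hP : P ≠ 0)
    (hX : h8xc W A ≠ h8xc W P) :
    (h8xc W (A + P) - h8xc W P) * (h8xc W (A - P) - h8xc W P) * (h8xc W A - h8xc W P) ^ 2 =
      -(W.Ψ₂Sq.eval (h8xc W P) * (h8xc W A - h8xc W P)) - W.Ψ₃.eval (h8xc W P) := by
  obtain ⟨-, -, hS, hPr⟩ := xaddsub h2 hA hP hX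
  rw [h18_eval_Ψ₂Sq, h18_eval_Ψ₃]
  linear_combination hPr - h8xc W P * hS

/-- **Centered sum formula** (general Weierstrass curve). -/
theorem h18_centered_sum (h2 : (2 : K) ≠ 0) {A P : W.Point} (hA : A ≠ 0) (hP : P ≠ 0)
    (hX : h8xc W A ≠ h8xc W P) :
    ((h8xc W (A + P) - h8xc W P) + (h8xc W (A - P) - h8xc W P)) * (h8xc W A - h8xc W P) ^ 2 =
      W.Ψ₂Sq.eval (h8xc W P) + (h8xc W A - h8xc W P) *
        (6 * h8xc W P ^ 2 + W.b₂ * h8xc W P + W.b₄) := by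
  obtain ⟨-, -, hS, -⟩ := xaddsub h2 hA hP hX
  rw [h18_eval_Ψ₂Sq]
  linear_combination hS

/-- The algebraic induction step. -/
theorem h18_step_alg {ξm ξ0 ξp wm2 wm1 w0 wp1 wp2 B c : K}
    (H1 : ξm * wm1 ^ 2 = -(w0 * wm2)) (H2 : ξ0 * w0 ^ 2 = -(wp1 * wm1))
    (G : ξp * ξm * ξ0 ^ 2 = -(B * ξ0) - c)
    (S : wp2 * wm2 = B * wp1 * wm1 - c * w0 ^ 2)
    (hm2 : wm2 ≠ 0) (hm1 : wm1 ≠ 0) : ξp * wp1 ^ 2 = -(wp2 * w0) := by
  have key : wm1 ^ 2 * wm2 * (ξp * wp1 ^ 2 + wp2 * w0) = 0 := by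
    linear_combination (wm1 ^ 2 * w0) * S +
      (wm1 ^ 2 * w0 * B + ξp * wm2 * (wp1 * wm1 - ξ0 * w0 ^ 2)) * H2 -
      (wm1 ^ 2 * w0 ^ 3) * G + (w0 ^ 3 * ξp * ξ0 ^ 2) * H1
  have hne : wm1 ^ 2 * wm2 ≠ 0 := mul_ne_zero (pow_ne_zero 2 hm1) hm2
  have := (mul_eq_zero.mp key).resolve_left hne
  linear_combination this

/-- The algebraic base case `k = 3`. -/
theorem h18_base3_alg {ξ2 ξ3 B c q d : K}
    (H2 : ξ2 * B = -c) (S : ξ3 * ξ2 ^ 2 = B + ξ2 * q) (hd : d = q * c - B ^ 2) :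
    ξ3 * c ^ 2 = -(d * B) := by
  subst hd
  linear_combination (B ^ 2) * S - (ξ3 * (ξ2 * B - c) - B * q) * H2

/-! ### The chain -/

/-- `x(kP) ≠ x(P)` as soon as `(k-1)P ≠ 0` and `(k+1)P ≠ 0`. -/
theorem h18_xc_ne {P : W.Point} (hP : P ≠ 0) {k : ℕ} (hk : (k + 1) • P ≠ 0)
    (hm : k • P ≠ 0) (hp : (k + 2) • P ≠ 0) :
    h8xc W ((k + 1) • P) ≠ h8xc W P := by
  intro h
  rcases (h8xc_eq_iff hk hP).mp h with h | h
  · apply hm
    rw [succ_nsmul] at h
    exact add_eq_right.mp h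
  · apply hp
    rw [succ_nsmul, h, neg_add_cancel]

/-- The statement of the chain at the index `k`. -/
def h18S (W : Affine K) (P : W.Point) (k : ℕ) : Prop :=
  h18w W P (k : ℤ) ≠ 0 ∧
    (h8xc W (k • P) - h8xc W P) * h18w W P (k : ℤ) ^ 2 =
      -(h18w W P ((k : ℤ) + 1) * h18w W P ((k : ℤ) - 1))

theorem h18S_one (P : W.Point) : h18S W P 1 := by
  refine ⟨?_, ?_⟩
  · rw [Nat.cast_one, h18w_one]; exact one_ne_zero
  · rw [one_smul, sub_self, zero_mul, Nat.cast_one, sub_self, h18w_zero, mul_zero, neg_zero]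

theorem h18S_two (h2 : (2 : K) ≠ 0) {P : W.Point} (hP : P ≠ 0) (h2P : 2 • P ≠ 0) :
    h18S W P 2 := by
  have hη : etac W P ≠ 0 := by
    intro h
    apply h2P
    rw [two_nsmul]
    exact (add_self_eq_zero_iff hP).mpr h
  obtain ⟨-, hdbl⟩ := xdouble h2 hP hη
  have hsq := etac_sq hP
  refine ⟨?_, ?_⟩
  · rw [Nat.cast_ofNat, h18w_two]; exact hη
  · have e1 : ((2 : ℕ) : ℤ) + 1 = 3 := by norm_num
    have e2 : ((2 : ℕ) : ℤ) - 1 = 1 := by norm_num
    rw [e1, e2, Nat.cast_ofNat, h18w_two, h18w_three, h18w_one, two_nsmul, h18_eval_Ψ₃]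
    linear_combination hdbl - h8xc W P * hsq

theorem h18S_three (h2 : (2 : K) ≠ 0) {P : W.Point} (hP : P ≠ 0) (h2P : 2 • P ≠ 0)
    (h3P : 3 • P ≠ 0) : h18S W P 3 := by
  obtain ⟨hw2, hS2⟩ := h18S_two h2 hP h2P
  have e1 : ((2 : ℕ) : ℤ) + 1 = 3 := by norm_num
  have e2 : ((2 : ℕ) : ℤ) - 1 = 1 := by norm_num
  rw [e1, e2, Nat.cast_ofNat, h18w_two, h18w_three, h18w_one, mul_one] at hS2
  rw [Nat.cast_ofNat, h18w_two] at hw2
  have hξ : h8xc W (2 • P) ≠ h8xc W P :=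
    h18_xc_ne (k := 1) hP h2P (by rwa [one_smul]) h3P
  have hξ' : h8xc W (2 • P) - h8xc W P ≠ 0 := sub_ne_zero.mpr hξ
  have hc : W.Ψ₃.eval (h8xc W P) ≠ 0 := by
    intro h0
    rw [h0, neg_zero] at hS2
    rcases mul_eq_zero.mp hS2 with h | h
    · exact hξ' h
    · exact hw2 (pow_eq_zero_iff (two_ne_zero) |>.mp h)
  have hsum := h18_centered_sum h2 h2P hP hξ
  have hA : 2 • P + P = 3 • P := by rw [← succ_nsmul]
  have hB : 2 • P - P = P := by rw [two_nsmul, add_sub_cancel_right]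
  rw [hA, hB, sub_self, add_zero] at hsum
  rw [h18_etac_sq hP] at hS2
  have := h18_base3_alg hS2 hsum (h18_eval_preΨ₄ (W := W) (h8xc W P))
  refine ⟨?_, ?_⟩
  · rw [Nat.cast_ofNat, h18w_three]; exact hc
  · have e3 : ((3 : ℕ) : ℤ) + 1 = 4 := by norm_num
    have e4 : ((3 : ℕ) : ℤ) - 1 = 2 := by norm_num
    rw [e3, e4, Nat.cast_ofNat, h18w_three, h18w_four, h18w_two, this, ← h18_etac_sq hP]
    ring

/-- **The chain theorem**: as long as no multiple `j • P`, `1 ≤ j ≤ n`, vanishes, the division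
polynomials do not vanish at `P` and `(x(kP) - x(P)) w(k)² = - w(k+1) w(k-1)`. -/
theorem h18_chain (h2 : (2 : K) ≠ 0) {P : W.Point} (hP : P ≠ 0) (n : ℕ)
    (hn : ∀ j : ℕ, 1 ≤ j → j ≤ n → j • P ≠ 0) :
    ∀ k : ℕ, 1 ≤ k → k ≤ n → h18S W P k := by
  intro k
  induction k using Nat.strong_induction_on with
  | _ k ih =>
    intro hk1 hkn
    rcases Nat.lt_or_ge k 4 with hk4 | hk4
    · interval_cases k
      · exact h18S_one P
      · exact h18S_two h2 hP (hn 2 (by norm_num) hkn)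
      · exact h18S_three h2 hP (hn 2 (by norm_num) (by omega)) (hn 3 (by norm_num) hkn)
    · obtain ⟨m, rfl⟩ : ∃ m, k = m + 3 := ⟨k - 3, by omega⟩
      -- indices: `m + 1`, `m + 2`, `m + 3` (new)
      obtain ⟨hw1, hS1⟩ := ih (m + 1) (by omega) (by omega) (by omega)
      obtain ⟨hw2, hS2⟩ := ih (m + 2) (by omega) (by omega) (by omega)
      have hP1 : (m + 1) • P ≠ 0 := hn _ (by omega) (by omega)
      have hP2 : (m + 2) • P ≠ 0 := hn _ (by omega) (by omega)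
      have hP3 : (m + 3) • P ≠ 0 := hn _ (by omega) (by omega)
      have hξ : h8xc W ((m + 2) • P) ≠ h8xc W P :=
        h18_xc_ne (k := m + 1) hP hP2 hP1 hP3
      have hξ' : h8xc W ((m + 2) • P) - h8xc W P ≠ 0 := sub_ne_zero.mpr hξ
      have c1 : ((m + 1 : ℕ) : ℤ) = (m : ℤ) + 1 := by push_cast; ring
      have c2 : ((m + 2 : ℕ) : ℤ) = (m : ℤ) + 2 := by push_cast; ring
      have c3 : ((m + 3 : ℕ) : ℤ) = (m : ℤ) + 3 := by push_cast; ring
      have i1 : (m : ℤ) + 1 + 1 = (m : ℤ) + 2 := by ring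
      have i2 : (m : ℤ) + 1 - 1 = (m : ℤ) := by ring
      have i3 : (m : ℤ) + 2 + 1 = (m : ℤ) + 3 := by ring
      have i4 : (m : ℤ) + 2 - 1 = (m : ℤ) + 1 := by ring
      have i5 : (m : ℤ) + 3 + 1 = (m : ℤ) + 4 := by ring
      have i6 : (m : ℤ) + 3 - 1 = (m : ℤ) + 2 := by ring
      rw [c1, i1, i2] at hS1
      rw [c1] at hw1
      rw [c2, i3, i4] at hS2
      rw [c2] at hw2
      -- `w (m) ≠ 0`
      have hw0 : h18w W P (m : ℤ) ≠ 0 := by
        rcases Nat.eq_zero_or_pos m with h0 | h0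
        · -- `m = 0` is impossible here only through the relation; use `S 1`
          subst h0
          exfalso
          -- `S 1` reads `0 = - (w 2 * w 0)`; we need `w 0 ≠ 0`, which is false: handle separately
          exact absurd hk4 (by omega)
        · have := (ih m (by omega) h0 (by omega)).1
          exact this
      -- `w (m+3) ≠ 0`
      have hw3 : h18w W P ((m : ℤ) + 3) ≠ 0 := by
        intro h0
        rw [h0, zero_mul, neg_zero] at hS2
        rcases mul_eq_zero.mp hS2 with h | h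
        · exact hξ' h
        · exact hw2 (pow_eq_zero_iff (two_ne_zero) |>.mp h)
      have hG := h18_centered h2 hP2 hP hξ
      have hA : (m + 2) • P + P = (m + 3) • P := by rw [← succ_nsmul]
      have hB : (m + 2) • P - P = (m + 1) • P := by
        have : (m + 2) • P = (m + 1) • P + P := succ_nsmul P (m + 1)
        rw [this, add_sub_cancel_right]
      rw [hA, hB] at hG
      have hSom := h18w_somos4 hP ((m : ℤ) + 2)
      have j1 : (m : ℤ) + 2 + 2 = (m : ℤ) + 4 := by ring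
      have j2 : (m : ℤ) + 2 - 2 = (m : ℤ) := by ring
      rw [j1, j2, i3, i4] at hSom
      refine ⟨by rw [c3]; exact hw3, ?_⟩
      rw [c3, i5, i6]
      exact h18_step_alg hS1 hS2 hG hSom hw0 hw1

/-! ### The exact order -/

/-- If `n ≥ 2` is the exact order of `P`, then `w n = 0` and `w k ≠ 0` for `1 ≤ k < n`. -/
theorem h18_w_order (h2 : (2 : K) ≠ 0) {P : W.Point} (hP : P ≠ 0) {n : ℕ} (hn2 : 2 ≤ n)
    (hnP : n • P = 0) (hmin : ∀ j : ℕ, 1 ≤ j → j < n → j • P ≠ 0) :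
    h18w W P (n : ℤ) = 0 ∧ ∀ k : ℕ, 1 ≤ k → k < n → h18w W P (k : ℤ) ≠ 0 := by
  have hch := h18_chain h2 hP (n - 1) (fun j hj1 hjn => hmin j hj1 (by omega))
  refine ⟨?_, fun k hk1 hkn => (hch k hk1 (by omega)).1⟩
  rcases Nat.lt_or_ge n 3 with h3 | h3
  · obtain rfl : n = 2 := by omega
    rw [Nat.cast_ofNat, h18w_two]
    rw [two_nsmul] at hnP
    exact (add_self_eq_zero_iff hP).mp hnP
  · obtain ⟨m, rfl⟩ : ∃ m, n = m + 3 := ⟨n - 3, by omega⟩
    obtain ⟨-, hS⟩ := hch (m + 2) (by omega) (by omega)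
    obtain ⟨hw, -⟩ := hch (m + 1) (by omega) (by omega)
    have hneg : (m + 2) • P = -P := by
      have : (m + 3) • P = (m + 2) • P + P := succ_nsmul P (m + 2)
      rw [this] at hnP
      exact eq_neg_of_add_eq_zero_left hnP
    have c2 : ((m + 2 : ℕ) : ℤ) + 1 = ((m + 3 : ℕ) : ℤ) := by push_cast; ring
    have c1 : ((m + 2 : ℕ) : ℤ) - 1 = ((m + 1 : ℕ) : ℤ) := by push_cast; ring
    rw [hneg, h8xc_neg, sub_self, zero_mul, c2, c1] at hS
    have : h18w W P ((m + 3 : ℕ) : ℤ) * h18w W P ((m + 1 : ℕ) : ℤ) = 0 := by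
      linear_combination hS
    exact (mul_eq_zero.mp this).resolve_right hw

/-- `Ψ₃` at a `2`-torsion point is `-(W_X)²`, up to the factor `4`. -/
theorem h18_four_mul_Ψ₃ {x y : K} (h : W.Equation x y) (hη : 2 * y + W.a₁ * x + W.a₃ = 0) :
    4 * W.Ψ₃.eval x = -(4 * (W.a₁ * y - (3 * x ^ 2 + 2 * W.a₂ * x + W.a₄)) ^ 2) := by
  rw [Affine.equation_iff] at h
  rw [h18_eval_Ψ₃]
  simp only [WeierstrassCurve.b₂, WeierstrassCurve.b₄, WeierstrassCurve.b₆, WeierstrassCurve.b₈]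
  linear_combination
    (2 * y * W.a₁ ^ 2 - 12 * x ^ 2 * W.a₁ - x * W.a₁ ^ 3 - 8 * x * W.a₁ * W.a₂
        - W.a₁ ^ 2 * W.a₃ - 4 * W.a₁ * W.a₄
      + (12 * x + W.a₁ ^ 2 + 4 * W.a₂) * (2 * y + W.a₁ * x + W.a₃)) * hη
    - (48 * x + 4 * W.a₁ ^ 2 + 16 * W.a₂) * h

/-- `Ψ₃` does not vanish at a point of exact order `2`. -/
theorem h18_Ψ₃_ne_zero_of_two_torsion (h2 : (2 : K) ≠ 0) {P : W.Point} (hP : P ≠ 0)
    (hη : etac W P = 0) : W.Ψ₃.eval (h8xc W P) ≠ 0 := by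
  cases P with
  | zero => exact absurd rfl hP
  | some x y h =>
    rw [etac_some] at hη
    rw [h8xc_some]
    have h4 := h18_four_mul_Ψ₃ h.1 hη
    have hns := (Affine.nonsingular_iff' x y).mp h
    have hX : W.a₁ * y - (3 * x ^ 2 + 2 * W.a₂ * x + W.a₄) ≠ 0 := by
      rcases hns.2 with h' | h'
      · exact h'
      · exact absurd hη h'
    intro h0
    rw [h0, mul_zero] at h4
    have h4' : (4 : K) ≠ 0 := by
      have : (4 : K) = 2 * 2 := by norm_num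
      rw [this]
      exact mul_ne_zero h2 h2
    have : 4 * (W.a₁ * y - (3 * x ^ 2 + 2 * W.a₂ * x + W.a₄)) ^ 2 = 0 := by
      linear_combination h4
    rcases mul_eq_zero.mp this with h' | h'
    · exact h4' h'
    · exact hX (pow_eq_zero_iff two_ne_zero |>.mp h')

/-- Non-degeneracy: if `n ≥ 2` is the exact order of `P`, then `w (n + 1) ≠ 0`. -/
theorem h18_w_succ_ne_zero (h2 : (2 : K) ≠ 0) {P : W.Point} (hP : P ≠ 0) {n : ℕ} (hn2 : 2 ≤ n)
    (hnP : n • P = 0) (hmin : ∀ j : ℕ, 1 ≤ j → j < n → j • P ≠ 0) :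
    h18w W P ((n : ℤ) + 1) ≠ 0 := by
  obtain ⟨hwn, hwk⟩ := h18_w_order h2 hP hn2 hnP hmin
  rcases Nat.lt_or_ge n 4 with h4 | h4
  · interval_cases n
    · -- `n = 2`
      have e : ((2 : ℕ) : ℤ) + 1 = 3 := by norm_num
      rw [e, h18w_three]
      rw [Nat.cast_ofNat, h18w_two] at hwn
      exact h18_Ψ₃_ne_zero_of_two_torsion h2 hP hwn
    · -- `n = 3`
      have e : ((3 : ℕ) : ℤ) + 1 = 4 := by norm_num
      rw [e, h18w_four, h18_eval_preΨ₄]
      rw [Nat.cast_ofNat, h18w_three] at hwn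
      have hb := hwk 2 (by norm_num) (by norm_num)
      rw [Nat.cast_ofNat, h18w_two] at hb
      rw [hwn, mul_zero, zero_sub, ← h18_etac_sq hP]
      exact mul_ne_zero (neg_ne_zero.mpr (pow_ne_zero 2 (pow_ne_zero 2 hb))) hb
  · have hc : W.Ψ₃.eval (h8xc W P) ≠ 0 := by
      have := hwk 3 (by norm_num) (by omega)
      rwa [Nat.cast_ofNat, h18w_three] at this
    have hm' : h18w W P ((n : ℤ) - 1) ≠ 0 := by
      have := hwk (n - 1) (by omega) (by omega)
      have e : ((n - 1 : ℕ) : ℤ) = (n : ℤ) - 1 := by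
        rw [Nat.cast_sub (by omega)]; norm_num
      rwa [e] at this
    exact normEDS_succ_ne_zero _ _ _ (n : ℤ) hc hm' hwn

/-- **Root criterion, sequence form**: for a prime `p` and `P ≠ 0`,
`p • P = 0 ↔ w p = 0`. -/
theorem h18_nsmul_eq_zero_iff (h2 : (2 : K) ≠ 0) {P : W.Point} (hP : P ≠ 0) {p : ℕ}
    (pp : p.Prime) : p • P = 0 ↔ h18w W P (p : ℤ) = 0 := by
  constructor
  · intro hpP
    exact (h18_w_order h2 hP pp.two_le hpP
      (fun j hj1 hjp => h8_nsmul_ne_zero pp hP hpP hj1 hjp)).1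
  · intro hw
    by_contra hpP
    by_cases hall : ∀ j : ℕ, 1 ≤ j → j ≤ p → j • P ≠ 0
    · exact (h18_chain h2 hP p hall p pp.one_le le_rfl).1 hw
    · push Not at hall
      have hex : ∃ j : ℕ, 1 ≤ j ∧ j • P = 0 := by
        obtain ⟨j, hj1, -, hj0⟩ := hall
        exact ⟨j, hj1, hj0⟩
      classical
      set m := Nat.find hex with hm
      obtain ⟨hm1, hmP⟩ := Nat.find_spec hex
      have hmin : ∀ j : ℕ, 1 ≤ j → j < m → j • P ≠ 0 := by
        intro j hj1 hjm hj0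
        exact Nat.find_min hex hjm ⟨hj1, hj0⟩
      have hmp : m ≤ p := by
        obtain ⟨j, hj1, hjp, hj0⟩ := hall
        exact (Nat.find_min' hex ⟨hj1, hj0⟩).trans hjp
      have hm2 : 2 ≤ m := by
        rcases Nat.lt_or_ge m 2 with h | h
        · have : m = 1 := by omega
          rw [← hm, this, one_smul] at hmP
          exact absurd hmP hP
        · exact h
      have hne : m ≠ p := by
        intro h
        rw [← hm, h] at hmP
        exact hpP hmP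
      obtain ⟨hwm, hwk⟩ := h18_w_order h2 hP hm2 hmP hmin
      have hsucc := h18_w_succ_ne_zero h2 hP hm2 hmP hmin
      have hndvd : ¬ (m : ℤ) ∣ (p : ℤ) := by
        rw [Int.natCast_dvd_natCast]
        intro hd
        rcases (Nat.dvd_prime pp).mp hd with h | h
        · omega
        · exact hne h
      refine normEDS_ne_zero_of_not_dvd _ _ _ (m : ℤ) (by exact_mod_cast hm2) ?_ hwm hsucc
        (p : ℤ) hndvd hw
      intro k hk1 hkm
      obtain ⟨k', rfl⟩ : ∃ k' : ℕ, k = (k' : ℤ) := ⟨k.toNat, by omega⟩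
      exact hwk k' (by exact_mod_cast hk1) (by exact_mod_cast hkm)

/-! ### Translation to Mathlib's `preΨ` -/

/-- For odd `n`, the sequence at `P` is the value of `preΨ n` at `x(P)`. -/
theorem h18w_eq_preΨ {P : W.Point} (hP : P ≠ 0) {n : ℤ} (hn : ¬ Even n) :
    h18w W P n = (W.preΨ n).eval (h8xc W P) := by
  unfold h18w normEDS
  rw [if_neg hn, mul_one, WeierstrassCurve.preΨ]
  have := map_preNormEDS (evalRingHom (h8xc W P)) (W.Ψ₂Sq ^ 2) W.Ψ₃ W.preΨ₄ n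
  simp only [coe_evalRingHom, eval_pow] at this
  rw [this, ← h18_etac_sq hP]
  congr 1
  ring

/-- **Root criterion**: for an odd prime `p` and a nonsingular point `(x, y)` of a Weierstrass
curve over a field with `2 ≠ 0`, `p • (x, y) = 0 ↔ preΨ_p(x) = 0`. -/
theorem h18_preΨ_root_iff (h2 : (2 : K) ≠ 0) {p : ℕ} (pp : p.Prime) (hp2 : p ≠ 2)
    {x y : K} (h : W.Nonsingular x y) :
    p • (Point.some x y h : W.Point) = 0 ↔ (W.preΨ (p : ℤ)).eval x = 0 := by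
  have hodd : ¬ Even (p : ℤ) := by
    rw [Int.even_coe_nat]
    exact fun he => hp2 ((Nat.Prime.even_iff pp).mp he)
  rw [h18_nsmul_eq_zero_iff h2 (Point.some_ne_zero h) pp,
    h18w_eq_preΨ (Point.some_ne_zero h) hodd, h8xc_some]

end Fermat.Agent.S13.EDS.Chain
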