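import Mathlib
import Fermat.Agent.S13.EDS.H2_Period

/-!
# The pointwise multiplication formula and the root criterion for `preΨ_p` (helper2)

For a nonsingular point `P = (x, y)` of a Weierstrass curve over a field of characteristic `0`,
with `w k = wSeq W x y k` the values of the division polynomials at `P`:

* `exists_nsmul_eq_some`: if `w k ≠ 0` for `1 ≤ k ≤ n` then `n • P` is the affine point with
  abscissa `x - w (n + 1) * w (n - 1) / w n ^ 2`;
* `nsmul_eq_zero_iff_eval_preΨ`: for an odd prime `p`, `p • P = 0 ↔ (W.preΨ p).eval x = 0`.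
-/

set_option autoImplicit false

open Polynomial WeierstrassCurve

namespace Fermat.Agent.S13.Ward

section Identities

variable {K : Type*} [Field K] (W : WeierstrassCurve K)

/-- Centred product formula, polynomial form. -/
lemma cp_poly {x₁ y₁ x₂ y₂ : K} (h₁ : W.toAffine.Equation x₁ y₁)
    (h₂ : W.toAffine.Equation x₂ y₂) :
    ((y₁ - y₂) ^ 2 + W.a₁ * (y₁ - y₂) * (x₁ - x₂) - (W.a₂ + x₁ + 2 * x₂) * (x₁ - x₂) ^ 2)
      * ((y₁ - W.toAffine.negY x₂ y₂) ^ 2 + W.a₁ * (y₁ - W.toAffine.negY x₂ y₂) * (x₁ - x₂)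
          - (W.a₂ + x₁ + 2 * x₂) * (x₁ - x₂) ^ 2)
      = (x₁ - x₂) ^ 2 * (-(W.Ψ₂Sq.eval x₂) * (x₁ - x₂) - W.Ψ₃.eval x₂) := by
  rw [WeierstrassCurve.Affine.equation_iff] at h₁ h₂
  simp only [WeierstrassCurve.Affine.negY, WeierstrassCurve.Ψ₃, WeierstrassCurve.Ψ₂Sq,
    WeierstrassCurve.b₂, WeierstrassCurve.b₄,
    WeierstrassCurve.b₆, WeierstrassCurve.b₈, eval_add, eval_mul, eval_pow, eval_C, eval_X,
    eval_ofNat]
  linear_combination
    (y₁ ^ 2 + y₁ * x₁ * W.a₁ + y₁ * W.a₃ - 2 * y₂ ^ 2 - 2 * y₂ * x₂ * W.a₁ - 2 * y₂ * W.a₃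
      - x₁ ^ 3 - x₁ ^ 2 * W.a₂ + 6 * x₁ * x₂ ^ 2 + x₁ * x₂ * W.a₁ ^ 2 + 4 * x₁ * x₂ * W.a₂
      + x₁ * W.a₁ * W.a₃ + x₁ * W.a₄ - 4 * x₂ ^ 3 - x₂ ^ 2 * W.a₁ ^ 2 - 2 * x₂ ^ 2 * W.a₂
      - x₂ * W.a₁ * W.a₃ + W.a₆) * h₁
    + (y₂ ^ 2 + y₂ * x₂ * W.a₁ + y₂ * W.a₃ - 4 * x₁ ^ 3 - x₁ ^ 2 * W.a₁ ^ 2 - 4 * x₁ ^ 2 * W.a₂
      + 6 * x₁ * x₂ ^ 2 + x₁ * x₂ * W.a₁ ^ 2 + 4 * x₁ * x₂ * W.a₂ - x₁ * W.a₁ * W.a₃
      - 2 * x₁ * W.a₄ - 3 * x₂ ^ 3 - x₂ ^ 2 * W.a₂ + x₂ * W.a₁ * W.a₃ + x₂ * W.a₄ - W.a₆) * h₂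

/-- Centred sum formula, polynomial form. -/
lemma cs_poly {x₁ y₁ x₂ y₂ : K} (h₁ : W.toAffine.Equation x₁ y₁)
    (h₂ : W.toAffine.Equation x₂ y₂) :
    ((y₁ - y₂) ^ 2 + W.a₁ * (y₁ - y₂) * (x₁ - x₂) - (W.a₂ + x₁ + 2 * x₂) * (x₁ - x₂) ^ 2)
      + ((y₁ - W.toAffine.negY x₂ y₂) ^ 2 + W.a₁ * (y₁ - W.toAffine.negY x₂ y₂) * (x₁ - x₂)
          - (W.a₂ + x₁ + 2 * x₂) * (x₁ - x₂) ^ 2)
      = W.Ψ₂Sq.eval x₂ + (6 * x₂ ^ 2 + W.b₂ * x₂ + W.b₄) * (x₁ - x₂) := by
  rw [WeierstrassCurve.Affine.equation_iff] at h₁ h₂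
  simp only [WeierstrassCurve.Affine.negY, WeierstrassCurve.Ψ₂Sq,
    WeierstrassCurve.b₂, WeierstrassCurve.b₄,
    WeierstrassCurve.b₆, eval_add, eval_mul, eval_pow, eval_C, eval_X]
  linear_combination 2 * h₁ + 2 * h₂

/-- Duplication formula, polynomial form. -/
lemma dup_poly {x y : K} (h : W.toAffine.Equation x y) :
    (3 * x ^ 2 + 2 * W.a₂ * x + W.a₄ - W.a₁ * y) ^ 2
      + W.a₁ * (3 * x ^ 2 + 2 * W.a₂ * x + W.a₄ - W.a₁ * y) * (2 * y + W.a₁ * x + W.a₃)
      - (W.a₂ + 3 * x) * (2 * y + W.a₁ * x + W.a₃) ^ 2 = -(W.Ψ₃.eval x) := by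
  rw [WeierstrassCurve.Affine.equation_iff] at h
  simp only [WeierstrassCurve.Ψ₃,
    WeierstrassCurve.b₂, WeierstrassCurve.b₄,
    WeierstrassCurve.b₆, WeierstrassCurve.b₈, eval_add, eval_mul, eval_pow, eval_C, eval_X,
    eval_ofNat]
  linear_combination (-(12 * x + W.a₁ ^ 2 + 4 * W.a₂)) * h

end Identities

section Rational

variable {K : Type*} [Field K] [DecidableEq K] (W : WeierstrassCurve K)

lemma addX_sub_mul_sq {x₁ x₂ : K} (hx : x₁ ≠ x₂) (y₁ y₂ : K) :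
    (W.toAffine.addX x₁ x₂ (W.toAffine.slope x₁ x₂ y₁ y₂) - x₂) * (x₁ - x₂) ^ 2
      = (y₁ - y₂) ^ 2 + W.a₁ * (y₁ - y₂) * (x₁ - x₂) - (W.a₂ + x₁ + 2 * x₂) * (x₁ - x₂) ^ 2 := by
  have hD : x₁ - x₂ ≠ 0 := sub_ne_zero.mpr hx
  rw [WeierstrassCurve.Affine.slope_of_X_ne hx, WeierstrassCurve.Affine.addX]
  field_simp
  ring

/-- Centred product formula. -/
lemma cp_formula {x₁ y₁ x₂ y₂ : K} (h₁ : W.toAffine.Equation x₁ y₁)
    (h₂ : W.toAffine.Equation x₂ y₂) (hx : x₁ ≠ x₂) :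
    (W.toAffine.addX x₁ x₂ (W.toAffine.slope x₁ x₂ y₁ y₂) - x₂)
      * (W.toAffine.addX x₁ x₂ (W.toAffine.slope x₁ x₂ y₁ (W.toAffine.negY x₂ y₂)) - x₂)
      * (x₁ - x₂) ^ 2
      = -(W.Ψ₂Sq.eval x₂) * (x₁ - x₂) - W.Ψ₃.eval x₂ := by
  have hD : (x₁ - x₂) ^ 2 ≠ 0 := pow_ne_zero 2 (sub_ne_zero.mpr hx)
  have e1 := addX_sub_mul_sq W hx y₁ y₂
  have e2 := addX_sub_mul_sq W hx y₁ (W.toAffine.negY x₂ y₂)
  have e3 := cp_poly W h₁ h₂
  rw [← e1, ← e2] at e3
  apply mul_left_cancel₀ hD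
  linear_combination e3

/-- Centred sum formula. -/
lemma cs_formula {x₁ y₁ x₂ y₂ : K} (h₁ : W.toAffine.Equation x₁ y₁)
    (h₂ : W.toAffine.Equation x₂ y₂) (hx : x₁ ≠ x₂) :
    ((W.toAffine.addX x₁ x₂ (W.toAffine.slope x₁ x₂ y₁ y₂) - x₂)
      + (W.toAffine.addX x₁ x₂ (W.toAffine.slope x₁ x₂ y₁ (W.toAffine.negY x₂ y₂)) - x₂))
      * (x₁ - x₂) ^ 2
      = W.Ψ₂Sq.eval x₂ + (6 * x₂ ^ 2 + W.b₂ * x₂ + W.b₄) * (x₁ - x₂) := by
  have e1 := addX_sub_mul_sq W hx y₁ y₂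
  have e2 := addX_sub_mul_sq W hx y₁ (W.toAffine.negY x₂ y₂)
  have e3 := cs_poly W h₁ h₂
  rw [← e1, ← e2] at e3
  linear_combination e3

/-- Duplication formula. -/
lemma dup_formula {x y : K} (h : W.toAffine.Equation x y)
    (hy : y ≠ W.toAffine.negY x y) :
    (W.toAffine.addX x x (W.toAffine.slope x x y y) - x) * (2 * y + W.a₁ * x + W.a₃) ^ 2
      = -(W.Ψ₃.eval x) := by
  have hb : y - W.toAffine.negY x y ≠ 0 := sub_ne_zero.mpr hy
  have hb' : y - W.toAffine.negY x y = 2 * y + W.a₁ * x + W.a₃ := by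
    simp only [WeierstrassCurve.Affine.negY]; ring
  have e := dup_poly W h
  have hℓ : W.toAffine.slope x x y y * (2 * y + W.a₁ * x + W.a₃)
      = 3 * x ^ 2 + 2 * W.a₂ * x + W.a₄ - W.a₁ * y := by
    rw [WeierstrassCurve.Affine.slope_of_Y_ne rfl hy, ← hb', div_mul_cancel₀ _ hb]
  rw [WeierstrassCurve.Affine.addX]
  generalize W.toAffine.slope x x y y = ℓ at hℓ ⊢
  linear_combination e + (ℓ * (2 * y + W.a₁ * x + W.a₃)
    + (3 * x ^ 2 + 2 * W.a₂ * x + W.a₄ - W.a₁ * y) + W.a₁ * (2 * y + W.a₁ * x + W.a₃)) * hℓ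

end Rational

section Induction

set_option linter.unusedSectionVars false

variable {K : Type*} [Field K] [DecidableEq K] (W : WeierstrassCurve K)

open WeierstrassCurve.Affine

/-- `HasX Q X`: `Q` is an affine point with abscissa `X`. -/
def HasX (Q : W.toAffine.Point) (X : K) : Prop :=
  ∃ (x' y' : K) (h' : W.toAffine.Nonsingular x' y'), Q = Point.some x' y' h' ∧ x' = X

variable {W}

lemma HasX.ne_zero {Q : W.toAffine.Point} {X : K} (h : HasX W Q X) : Q ≠ 0 := by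
  obtain ⟨x', y', h', rfl, -⟩ := h
  exact Point.some_ne_zero h'

variable (W)

@[simp] lemma wSeq_zero (x y : K) : wSeq W x y 0 = 0 := by simp [wSeq]
@[simp] lemma wSeq_one (x y : K) : wSeq W x y 1 = 1 := by simp [wSeq]
@[simp] lemma wSeq_two (x y : K) : wSeq W x y 2 = 2 * y + W.a₁ * x + W.a₃ := by simp [wSeq]
@[simp] lemma wSeq_three (x y : K) : wSeq W x y 3 = W.Ψ₃.eval x := by simp [wSeq]
@[simp] lemma wSeq_four (x y : K) :
    wSeq W x y 4 = W.preΨ₄.eval x * (2 * y + W.a₁ * x + W.a₃) := by simp [wSeq]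

lemma wSeq_somos4 (x y : K) (n : ℤ) :
    wSeq W x y (n + 2) * wSeq W x y (n - 2)
      = (2 * y + W.a₁ * x + W.a₃) ^ 2 * wSeq W x y (n + 1) * wSeq W x y (n - 1)
        - W.Ψ₃.eval x * wSeq W x y n ^ 2 :=
  normEDS_somos4 _ _ _ n

variable {W}

/-- Field algebra for the inductive step, `n ≥ 3`. -/
lemma step_core {T x w2 w1 w0 v1 v2 b c : K} (hw1 : w1 ≠ 0) (hw0 : w0 ≠ 0) (hv1 : v1 ≠ 0)
    (hv2 : v2 ≠ 0)
    (cp : (T - x) * (-(w0 * v2 / v1 ^ 2)) * (-(w1 * v1 / w0 ^ 2)) ^ 2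
      = -b ^ 2 * -(w1 * v1 / w0 ^ 2) - c)
    (hS : w2 * v2 = b ^ 2 * w1 * v1 - c * w0 ^ 2) :
    T = x - w2 * w0 / w1 ^ 2 := by
  have e1 : (T - x) * (-(w0 * v2 / v1 ^ 2)) * (-(w1 * v1 / w0 ^ 2)) ^ 2
      = -(T - x) * (v2 * w1 ^ 2 / w0 ^ 3) := by
    field_simp
  have e2 : -b ^ 2 * -(w1 * v1 / w0 ^ 2) - c = w2 * v2 / w0 ^ 2 := by
    rw [hS]
    field_simp
  rw [e1, e2] at cp
  have e4 : (T - x) * w1 ^ 2 = -(w2 * w0) := by
    have h1 : -(T - x) * (v2 * w1 ^ 2 / w0 ^ 3) * (w0 ^ 3 / v2)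
        = w2 * v2 / w0 ^ 2 * (w0 ^ 3 / v2) := by rw [cp]
    have h2 : -(T - x) * (v2 * w1 ^ 2 / w0 ^ 3) * (w0 ^ 3 / v2) = -(T - x) * w1 ^ 2 := by
      field_simp
    have h3 : w2 * v2 / w0 ^ 2 * (w0 ^ 3 / v2) = w2 * w0 := by field_simp
    rw [h2, h3] at h1
    linear_combination -h1
  have e5 : T - x = -(w2 * w0) / w1 ^ 2 := by
    rw [eq_div_iff (pow_ne_zero 2 hw1)]
    exact e4
  linear_combination e5

/-- Field algebra for the inductive step, `n = 2`. -/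
lemma step_core_two {T x b c d κ : K} (hb : b ≠ 0) (hc : c ≠ 0)
    (cs : ((T - x) + (x - x)) * (-(c * 1 / b ^ 2)) ^ 2 = b ^ 2 + κ * (-(c * 1 / b ^ 2)))
    (hd : d = κ * c - (b ^ 2) ^ 2) :
    T = x - d * b * b / c ^ 2 := by
  subst hd
  have e0 : ((T - x) + (x - x)) * (-(c * 1 / b ^ 2)) ^ 2 = (T - x) * c ^ 2 / b ^ 4 := by
    field_simp
    ring
  have e0' : b ^ 2 + κ * (-(c * 1 / b ^ 2)) = (b ^ 4 - κ * c) / b ^ 2 := by
    field_simp
    ring
  rw [e0, e0'] at cs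
  have e1 : (T - x) * c ^ 2 = (b ^ 4 - κ * c) * b ^ 2 := by
    have h1 : (T - x) * c ^ 2 / b ^ 4 * b ^ 4 = (b ^ 4 - κ * c) / b ^ 2 * b ^ 4 := by rw [cs]
    have h2 : (T - x) * c ^ 2 / b ^ 4 * b ^ 4 = (T - x) * c ^ 2 := by field_simp
    have h3 : (b ^ 4 - κ * c) / b ^ 2 * b ^ 4 = (b ^ 4 - κ * c) * b ^ 2 := by field_simp
    rw [h2, h3] at h1
    exact h1
  have e5 : T - x = (b ^ 4 - κ * c) * b ^ 2 / c ^ 2 := by
    rw [eq_div_iff (pow_ne_zero 2 hc)]
    exact e1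
  have e6 : (κ * c - (b ^ 2) ^ 2) * b * b / c ^ 2 = -((b ^ 4 - κ * c) * b ^ 2 / c ^ 2) := by
    ring
  rw [e6]
  linear_combination e5

/-- Base case `n = 2` (duplication). -/
lemma hasX_two {x y : K} (h : W.toAffine.Nonsingular x y) (hw : wSeq W x y 2 ≠ 0) :
    HasX W (2 • Point.some x y h)
      (x - wSeq W x y 3 * wSeq W x y 1 / wSeq W x y 2 ^ 2) := by
  have hb' : y - W.toAffine.negY x y = 2 * y + W.a₁ * x + W.a₃ := by
    simp only [WeierstrassCurve.Affine.negY]; ring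
  rw [wSeq_two] at hw
  have hy : y ≠ W.toAffine.negY x y := by
    intro h0
    apply hw
    rw [← hb', sub_eq_zero]
    exact h0
  have A : 2 • Point.some x y h
      = Point.some _ _ (nonsingular_add h h fun hxy => hy hxy.right) := by
    rw [two_nsmul]
    exact Point.add_self_of_Y_ne hy
  refine ⟨_, _, _, A, ?_⟩
  have e := dup_formula W h.1 hy
  rw [wSeq_three, wSeq_one, wSeq_two]
  generalize W.toAffine.addX x x (W.toAffine.slope x x y y) = T at e ⊢
  generalize (2 * y + W.a₁ * x + W.a₃) = b at *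
  field_simp
  linear_combination e

/-- Geometry of the inductive step: the abscissas of `(n + 1) P` and `(n - 1) P` from that of
`n P`. -/
lemma hasX_geom {x y : K} (h : W.toAffine.Nonsingular x y) (n : ℕ) (hn : 1 ≤ n)
    {x'' y'' : K} (h'' : W.toAffine.Nonsingular x'' y'')
    (eq2 : n • Point.some x y h = Point.some x'' y'' h'') (hX : x'' ≠ x) :
    HasX W ((n + 1) • Point.some x y h)
        (W.toAffine.addX x'' x (W.toAffine.slope x'' x y'' y)) ∧
      HasX W ((n - 1) • Point.some x y h)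
        (W.toAffine.addX x'' x (W.toAffine.slope x'' x y'' (W.toAffine.negY x y))) := by
  have A : (n + 1) • Point.some x y h
      = Point.some _ _ (nonsingular_add h'' h fun hxy => hX hxy.left) := by
    rw [succ_nsmul, eq2]
    exact Point.add_of_X_ne hX
  have B : (n - 1) • Point.some x y h
      = Point.some _ _ (nonsingular_add h'' ((nonsingular_neg ..).mpr h)
          fun hxy => hX hxy.left) := by
    have e : n • Point.some x y h = (n - 1) • Point.some x y h + Point.some x y h := by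
      rw [← succ_nsmul]
      congr 1
      omega
    have e' : (n - 1) • Point.some x y h = n • Point.some x y h + -Point.some x y h := by
      rw [e]; abel
    rw [e', eq2, Point.neg_some]
    exact Point.add_of_X_ne hX
  exact ⟨⟨_, _, _, A, rfl⟩, ⟨_, _, _, B, rfl⟩⟩

lemma HasX.unique {Q : W.toAffine.Point} {X X' : K} (h : HasX W Q X) (h' : HasX W Q X') :
    X = X' := by
  obtain ⟨x₁, y₁, h₁, e₁, rfl⟩ := h
  obtain ⟨x₂, y₂, h₂, e₂, rfl⟩ := h'
  rw [e₁] at e₂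
  injection e₂

/-- The inductive step. -/
lemma hasX_succ {x y : K} (h : W.toAffine.Nonsingular x y) (n : ℕ) (hn : 2 ≤ n)
    (hw : ∀ k : ℤ, 1 ≤ k → k ≤ (n : ℤ) + 1 → wSeq W x y k ≠ 0)
    (e1 : HasX W ((n - 1) • Point.some x y h)
      (x - wSeq W x y n * wSeq W x y ((n : ℤ) - 2) / wSeq W x y ((n : ℤ) - 1) ^ 2))
    (e2 : HasX W (n • Point.some x y h)
      (x - wSeq W x y ((n : ℤ) + 1) * wSeq W x y ((n : ℤ) - 1) / wSeq W x y n ^ 2)) :
    HasX W ((n + 1) • Point.some x y h)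
      (x - wSeq W x y ((n : ℤ) + 2) * wSeq W x y n / wSeq W x y ((n : ℤ) + 1) ^ 2) := by
  obtain ⟨x'', y'', h'', eq2, hx''⟩ := e2
  have hwn : wSeq W x y n ≠ 0 := hw n (by omega) (by omega)
  have hwn1 : wSeq W x y ((n : ℤ) + 1) ≠ 0 := hw _ (by omega) (by omega)
  have hwn' : wSeq W x y ((n : ℤ) - 1) ≠ 0 := hw _ (by omega) (by omega)
  have hX : x'' ≠ x := by
    rw [hx'']
    intro h0
    have : wSeq W x y ((n : ℤ) + 1) * wSeq W x y ((n : ℤ) - 1) / wSeq W x y n ^ 2 = 0 := by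
      linear_combination -h0
    simp only [div_eq_zero_iff, mul_eq_zero, pow_eq_zero_iff, ne_eq, OfNat.ofNat_ne_zero,
      not_false_eq_true] at this
    tauto
  obtain ⟨gA, gB⟩ := hasX_geom h n (by omega) h'' eq2 hX
  have hB := HasX.unique gB e1
  have hD : x'' - x
      = -(wSeq W x y ((n : ℤ) + 1) * wSeq W x y ((n : ℤ) - 1) / wSeq W x y n ^ 2) := by
    rw [hx'']; ring
  have hΨ2 := eval_Ψ₂Sq_of_equation W h.1
  obtain ⟨xA, yA, hA, eqA, hxA⟩ := gA
  refine ⟨xA, yA, hA, eqA, ?_⟩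
  rw [hxA]
  rcases Nat.lt_or_ge 2 n with hn3 | hn2
  · -- `n ≥ 3`: centred product formula and Somos-4
    have hwn2 : wSeq W x y ((n : ℤ) - 2) ≠ 0 := hw _ (by omega) (by omega)
    have cp := cp_formula W h''.1 h.1 hX
    rw [hB, hΨ2, hD] at cp
    have hS := wSeq_somos4 W x y n
    refine step_core hwn1 hwn hwn' hwn2 ?_ hS
    rw [← cp]
    ring
  · -- `n = 2`: centred sum formula
    have hn2' : n = 2 := by omega
    subst hn2'
    have cs := cs_formula W h''.1 h.1 hX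
    rw [hB, hΨ2, hD] at cs
    have hd := congrArg (Polynomial.eval x) (preΨ₄_eq W)
    simp only [eval_sub, eval_mul, eval_add, eval_pow, eval_C, eval_X, eval_ofNat, hΨ2] at hd
    have c1 : ((2 : ℕ) : ℤ) + 1 = 3 := by norm_num
    have c2 : ((2 : ℕ) : ℤ) - 1 = 1 := by norm_num
    have c3 : ((2 : ℕ) : ℤ) + 2 = 4 := by norm_num
    have c4 : ((2 : ℕ) : ℤ) - 2 = 0 := by norm_num
    have c5 : ((2 : ℕ) : ℤ) = 2 := by norm_num
    simp only [c1, c2, c3, c4] at cs hwn hwn1 hwn' ⊢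
    simp only [c5] at cs hwn hwn1 hwn' ⊢
    simp only [wSeq_two, wSeq_three, wSeq_four, wSeq_one, wSeq_zero] at cs hwn hwn1 hwn' ⊢
    refine step_core_two hwn hwn1 ?_ hd
    rw [← cs]
    ring

end Induction

section Main

set_option linter.unusedSectionVars false

variable {K : Type*} [Field K] [DecidableEq K] {W : WeierstrassCurve K}

open WeierstrassCurve.Affine

/-- **Pointwise multiplication formula**: if the division polynomials `ψ₁, …, ψₙ` do not vanish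
at `P = (x, y)`, then `n • P` is affine with abscissa `x - ψₙ₊₁ ψₙ₋₁ / ψₙ²`. -/
theorem hasX_nsmul {x y : K} (h : W.toAffine.Nonsingular x y) :
    ∀ n : ℕ, 1 ≤ n → (∀ k : ℤ, 1 ≤ k → k ≤ (n : ℤ) → wSeq W x y k ≠ 0) →
      HasX W (n • Point.some x y h)
        (x - wSeq W x y ((n : ℤ) + 1) * wSeq W x y ((n : ℤ) - 1) / wSeq W x y n ^ 2) := by
  intro n
  induction n using Nat.strong_induction_on with
  | _ n ih =>
    intro hn hw
    rcases Nat.lt_or_ge n 3 with h3 | h3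
    · interval_cases n
      · refine ⟨x, y, h, one_nsmul _, ?_⟩
        have c2 : ((1 : ℕ) : ℤ) - 1 = 0 := by norm_num
        rw [c2, wSeq_zero]
        ring
      · have c1 : ((2 : ℕ) : ℤ) + 1 = 3 := by norm_num
        have c2 : ((2 : ℕ) : ℤ) - 1 = 1 := by norm_num
        have c5 : ((2 : ℕ) : ℤ) = 2 := by norm_num
        have hw2 := hw 2 (by norm_num) (by norm_num)
        have := hasX_two h hw2
        rw [c1, c2, c5]
        exact this
    · -- `n ≥ 3`: apply the step with `n - 1 ≥ 2`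
      obtain ⟨m, rfl⟩ : ∃ m, n = m + 1 := ⟨n - 1, by omega⟩
      have hm2 : 2 ≤ m := by omega
      have e2 := ih m (by omega) (by omega) (fun k hk1 hk2 => hw k hk1 (by push_cast; omega))
      have e1 := ih (m - 1) (by omega) (by omega)
        (fun k hk1 hk2 => hw k hk1 (by push_cast; omega))
      have c0 : ((m - 1 : ℕ) : ℤ) = (m : ℤ) - 1 := by omega
      have c1 : ((m - 1 : ℕ) : ℤ) + 1 = (m : ℤ) := by omega
      have c2 : ((m - 1 : ℕ) : ℤ) - 1 = (m : ℤ) - 2 := by omega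
      rw [c1, c2, c0] at e1
      have := hasX_succ h m hm2 (fun k hk1 hk2 => hw k hk1 (by push_cast; omega)) e1 e2
      have d0 : ((m + 1 : ℕ) : ℤ) = (m : ℤ) + 1 := by push_cast; ring
      have d1 : ((m + 1 : ℕ) : ℤ) + 1 = (m : ℤ) + 2 := by push_cast; ring
      have d2 : ((m + 1 : ℕ) : ℤ) - 1 = (m : ℤ) := by push_cast; ring
      rw [d1, d2, d0]
      exact this

/-- The first zero `m ≥ 2` of the division polynomials at `P` kills `P`. -/
theorem nsmul_eq_zero_of_first_zero {x y : K} (h : W.toAffine.Nonsingular x y) (m : ℕ)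
    (hm2 : 2 ≤ m) (hmin : ∀ k : ℤ, 1 ≤ k → k < (m : ℤ) → wSeq W x y k ≠ 0)
    (hm : wSeq W x y m = 0) : m • Point.some x y h = 0 := by
  rcases Nat.lt_or_ge m 3 with h3 | h3
  · have hm' : m = 2 := by omega
    subst hm'
    have c5 : ((2 : ℕ) : ℤ) = 2 := by norm_num
    rw [c5, wSeq_two] at hm
    rw [two_nsmul]
    refine Point.add_self_of_Y_eq ?_
    simp only [WeierstrassCurve.Affine.negY]
    linear_combination hm
  · obtain ⟨n, rfl⟩ : ∃ n, m = n + 1 := ⟨m - 1, by omega⟩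
    have hn2 : 2 ≤ n := by omega
    have e1 := hasX_nsmul h n (by omega) (fun k hk1 hk2 => hmin k hk1 (by push_cast; omega))
    have d0 : ((n + 1 : ℕ) : ℤ) = (n : ℤ) + 1 := by push_cast; ring
    rw [d0] at hm
    rw [hm, zero_mul, zero_div, sub_zero] at e1
    obtain ⟨x', y', h', eq1, hx'⟩ := e1
    have e0 := hasX_nsmul h (n - 1) (by omega)
      (fun k hk1 hk2 => hmin k hk1 (by push_cast; omega))
    rcases (Point.X_eq_iff (h₁ := h') (h₂ := h)).mp hx' with hP | hP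
    · exfalso
      apply e0.ne_zero
      have e : n • Point.some x y h = (n - 1) • Point.some x y h + Point.some x y h := by
        rw [← succ_nsmul]
        congr 1
        omega
      rw [eq1, hP] at e
      have : (n - 1) • Point.some x y h + Point.some x y h = 0 + Point.some x y h := by
        rw [← e, zero_add]
      exact add_right_cancel this
    · rw [succ_nsmul, eq1, hP]
      exact neg_add_cancel _

/-- Non-degeneracy at a nonsingular point: the first zero `m ≥ 2` of the division polynomials is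
not followed by another zero. -/
theorem wSeq_succ_ne_zero [CharZero K] {x y : K} (h : W.toAffine.Nonsingular x y) (m : ℤ)
    (hm2 : 2 ≤ m) (hmin : ∀ k : ℤ, 1 ≤ k → k < m → wSeq W x y k ≠ 0)
    (hm : wSeq W x y m = 0) : wSeq W x y (m + 1) ≠ 0 := by
  rcases lt_or_ge m 4 with h4 | h4
  · rcases lt_or_ge m 3 with h3 | h3
    · -- `m = 2`
      have hm' : m = 2 := by omega
      subst hm'
      rw [wSeq_two] at hm
      have e : (2 : ℤ) + 1 = 3 := by norm_num
      rw [e, wSeq_three, eval_Ψ₃_of_two_torsion W h.1 hm, neg_ne_zero]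
      apply pow_ne_zero
      rw [WeierstrassCurve.Affine.nonsingular_iff] at h
      rcases h.2 with h' | h'
      · exact sub_ne_zero.mpr h'
      · exfalso
        apply h'
        linear_combination hm
    · -- `m = 3`
      have hm' : m = 3 := by omega
      subst hm'
      rw [wSeq_three] at hm
      have hb := hmin 2 (by norm_num) (by norm_num)
      rw [wSeq_two] at hb
      have e : (3 : ℤ) + 1 = 4 := by norm_num
      have hd := congrArg (Polynomial.eval x) (preΨ₄_eq W)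
      simp only [eval_sub, eval_mul, eval_add, eval_pow, eval_C, eval_X, eval_ofNat,
        eval_Ψ₂Sq_of_equation W h.1, hm, mul_zero, zero_sub] at hd
      rw [e, wSeq_four, hd]
      exact mul_ne_zero (neg_ne_zero.mpr (pow_ne_zero _ (pow_ne_zero _ hb))) hb
  · -- `m ≥ 4`
    have hc := hmin 3 (by norm_num) (by omega)
    rw [wSeq_three] at hc
    exact normEDS_succ_ne_zero _ _ _ m hc (hmin (m - 1) (by omega) (by omega)) hm

/-- Away from the multiples of the first zero `m`, the division polynomials do not vanish. -/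
theorem wSeq_ne_zero_of_not_dvd [CharZero K] {x y : K} (h : W.toAffine.Nonsingular x y) (m : ℤ)
    (hm2 : 2 ≤ m) (hmin : ∀ k : ℤ, 1 ≤ k → k < m → wSeq W x y k ≠ 0)
    (hm : wSeq W x y m = 0) (n : ℤ) (hn : ¬ m ∣ n) : wSeq W x y n ≠ 0 :=
  normEDS_ne_zero_of_not_dvd _ _ _ m hm2 hmin hm (wSeq_succ_ne_zero h m hm2 hmin hm) n hn

/-- If some division polynomial `ψₙ`, `n ≥ 2`, vanishes at `P`, there is a first zero. -/
lemma exists_first_zero {x y : K} (n : ℕ) (hn : 2 ≤ n) (hw : wSeq W x y n = 0) :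
    ∃ m : ℕ, 2 ≤ m ∧ m ≤ n ∧ wSeq W x y m = 0 ∧
      ∀ k : ℤ, 1 ≤ k → k < (m : ℤ) → wSeq W x y k ≠ 0 := by
  classical
  have hex : ∃ m : ℕ, 2 ≤ m ∧ wSeq W x y m = 0 := ⟨n, hn, hw⟩
  refine ⟨Nat.find hex, (Nat.find_spec hex).1, Nat.find_min' hex ⟨hn, hw⟩,
    (Nat.find_spec hex).2, ?_⟩
  intro k hk1 hk2 hk0
  obtain ⟨j, rfl⟩ : ∃ j : ℕ, k = j := ⟨k.toNat, by omega⟩
  rcases Nat.lt_or_ge j 2 with hj | hj
  · have hj1 : j = 1 := by omega
    subst hj1
    simp at hk0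
  · exact Nat.find_min hex (by exact_mod_cast hk2) ⟨hj, hk0⟩

/-- **Root criterion**: for an odd prime `p`, `p • P = 0` iff the `p`-th division polynomial
vanishes at `P`. -/
theorem nsmul_eq_zero_iff_wSeq [CharZero K] {x y : K} (h : W.toAffine.Nonsingular x y)
    (p : ℕ) (hp : p.Prime) :
    p • Point.some x y h = 0 ↔ wSeq W x y p = 0 := by
  have hp2 : 2 ≤ p := hp.two_le
  constructor
  · intro h0
    by_contra hw
    by_cases hall : ∀ k : ℤ, 1 ≤ k → k ≤ (p : ℤ) → wSeq W x y k ≠ 0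
    · exact (hasX_nsmul h p (by omega) hall).ne_zero h0
    · push Not at hall
      obtain ⟨k, hk1, hk2, hk0⟩ := hall
      obtain ⟨j, rfl⟩ : ∃ j : ℕ, k = j := ⟨k.toNat, by omega⟩
      have hj2 : 2 ≤ j := by
        rcases Nat.lt_or_ge j 2 with hj | hj
        · have hj1 : j = 1 := by omega
          subst hj1
          simp at hk0
        · exact hj
      obtain ⟨m, hm2, hmj, hm0, hmin⟩ := exists_first_zero j hj2 hk0
      have hmp : m < p := by
        rcases Nat.lt_or_ge m p with hlt | hge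
        · exact hlt
        · exfalso
          have : m = p := by omega
          subst this
          exact hw hm0
      have hmP := nsmul_eq_zero_of_first_zero h m hm2 hmin hm0
      have hcop : Nat.Coprime m p := by
        rw [Nat.coprime_comm]
        refine (Nat.Prime.coprime_iff_not_dvd hp).mpr (fun hd => ?_)
        have := Nat.le_of_dvd (by omega) hd
        omega
      have hd1 : addOrderOf (Point.some x y h) ∣ m := addOrderOf_dvd_of_nsmul_eq_zero hmP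
      have hd2 : addOrderOf (Point.some x y h) ∣ p := addOrderOf_dvd_of_nsmul_eq_zero h0
      have hd : addOrderOf (Point.some x y h) ∣ 1 := by
        have := Nat.dvd_gcd hd1 hd2
        rwa [hcop] at this
      have : Point.some x y h = 0 := by
        rw [← AddMonoid.addOrderOf_eq_one_iff]
        exact Nat.dvd_one.mp hd
      exact Point.some_ne_zero h this
  · intro hw
    obtain ⟨m, hm2, hmp, hm0, hmin⟩ := exists_first_zero p hp2 hw
    have hmP := nsmul_eq_zero_of_first_zero h m hm2 hmin hm0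
    rcases Nat.lt_or_ge m p with hlt | hge
    · exfalso
      have hnd : ¬ (m : ℤ) ∣ (p : ℤ) := by
        intro hd
        have hd' : m ∣ p := by exact_mod_cast hd
        rcases (Nat.dvd_prime hp).mp hd' with h1 | h1 <;> omega
      exact wSeq_ne_zero_of_not_dvd h m (by exact_mod_cast hm2) hmin hm0 p hnd hw
    · have : m = p := by omega
      subst this
      exact hmP

/-- The value of the division polynomial at a point in terms of Mathlib's `preΨ`. -/
lemma wSeq_eq_eval_preΨ {x y : K} (h : W.toAffine.Equation x y) (n : ℤ) :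
    wSeq W x y n
      = (W.preΨ n).eval x * if Even n then 2 * y + W.a₁ * x + W.a₃ else 1 := by
  have e : (W.preΨ n).eval x
      = preNormEDS ((2 * y + W.a₁ * x + W.a₃) ^ 4) (W.Ψ₃.eval x) (W.preΨ₄.eval x) n := by
    have := map_preNormEDS (Polynomial.evalRingHom x) (W.Ψ₂Sq ^ 2) W.Ψ₃ W.preΨ₄ n
    simp only [Polynomial.coe_evalRingHom, eval_pow, eval_Ψ₂Sq_of_equation W h] at this
    rw [WeierstrassCurve.preΨ, this]
    congr 1
    ring
  rw [e, wSeq, normEDS]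

/-- **Root criterion** for Mathlib's `preΨ`: for an odd prime `p` and a nonsingular point
`P = (x, y)` of a Weierstrass curve over a field of characteristic `0`,
`p • P = 0 ↔ (W.preΨ p).eval x = 0`. -/
theorem nsmul_eq_zero_iff_eval_preΨ [CharZero K] {x y : K} (h : W.toAffine.Nonsingular x y)
    (p : ℕ) (hp : p.Prime) (hp2 : p ≠ 2) :
    p • Point.some x y h = 0 ↔ (W.preΨ p).eval x = 0 := by
  rw [nsmul_eq_zero_iff_wSeq h p hp, wSeq_eq_eval_preΨ h.1]
  have hodd : ¬ Even (p : ℤ) := by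
    rw [Int.even_coe_nat]
    intro he
    exact hp2 ((Nat.Prime.even_iff hp).mp he)
  rw [if_neg hodd, mul_one]

end Main

end Fermat.Agent.S13.Ward
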